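import Mathlib
import Fermat.Agent.Flat.Conc6
import Fermat.Agent.MZ.LiftM

/-!
# Change of parameter: Riemann-Roch spaces
-/

set_option autoImplicit false
set_option linter.unusedSectionVars false

noncomputable section

namespace Fermat.Agent.GC

open AlgebraicCurve IsDedekindDomain IntermediateField WithZero Module Fermat.Agent.FunField
open Fermat.Agent.Flat
open Polynomial (aeval)

section LSp

variable {K F : Type*} [Field K] [Field F] [Algebra K F] [IsAlgClosed K] {s u : F} {k : ℕ}
  {Q : Polynomial K}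

/-- a change of parameter -/
structure Chg (K : Type*) {F : Type*} [Field K] [Field F] [Algebra K F] (s u : F) (k : ℕ)
    (Q : Polynomial K) : Prop where
  mon : Q.Monic
  lt : k < Q.natDegree
  zero : k = 0 ∨ Q.coeff 0 ≠ 0
  eq : u * aeval s Q = s ^ k

theorem aeval_eq_prod (hQ : Q.Monic) (s : F) :
    aeval s Q = (Q.roots.map fun a => s - algebraMap K F a).prod := by
  have h1 := (IsAlgClosed.splits Q).eq_prod_roots_of_monic hQ
  conv_lhs => rw [h1]
  rw [map_multiset_prod, Multiset.map_map]
  congr 1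
  refine Multiset.map_congr rfl fun a _ => ?_
  simp

theorem ord_multiset_prod (v : Place K F) (m : Multiset F) (hm : ∀ x ∈ m, x ≠ 0) :
    v.ord m.prod = (m.map v.ord).sum := by
  induction m using Multiset.induction_on with
  | empty => rw [Multiset.prod_zero, Multiset.map_zero, Multiset.sum_zero, v.ord_one]
  | cons a m ih =>
    have h1 : ∀ x ∈ m, x ≠ 0 := fun x hx => hm x (Multiset.mem_cons_of_mem hx)
    rw [Multiset.prod_cons, Multiset.map_cons, Multiset.sum_cons,
      v.ord_mul (hm a (Multiset.mem_cons_self a m)) (Multiset.prod_ne_zero fun h => h1 0 h rfl),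
      ih h1]

theorem ord_aeval_neg (hs : Transcendental K s) (hQ : Q.Monic) {v : Place K F}
    (hv : v.ord s < 0) : v.ord (aeval s Q) = Q.natDegree * v.ord s := by
  rw [aeval_eq_prod hQ, ord_multiset_prod, Multiset.map_map]
  · have h1 : Q.roots.map (v.ord ∘ fun a => s - algebraMap K F a) =
        Q.roots.map fun _ => v.ord s :=
      Multiset.map_congr rfl fun a _ => ord_sub_of_neg v hv a
    rw [h1, Multiset.map_const', Multiset.sum_replicate, nsmul_eq_mul,
      ← (IsAlgClosed.splits Q).natDegree_eq_card_roots]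
  · intro x hx
    obtain ⟨a, -, rfl⟩ := Multiset.mem_map.mp hx
    intro h0
    exact hs ((sub_eq_zero.mp h0) ▸ isAlgebraic_algebraMap a)

theorem ord_aeval_nonneg {v : Place K F} (hv : 0 ≤ v.ord s) (P : Polynomial K) :
    0 ≤ v.ord (aeval s P) := by
  apply ord_nonneg_of_mem
  have hs := mem_of_ord_nonneg v hv
  rw [Polynomial.aeval_eq_sum_range]
  refine sum_mem fun i _ => ?_
  rw [Algebra.smul_def]
  exact mul_mem (v.algebraMap_mem' _) (pow_mem hs _)

theorem ord_aeval_pos (h : Sep K s) (hQ0 : Q.coeff 0 ≠ 0) {v : Place K F} (hv : 0 < v.ord s) :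
    v.ord (aeval s Q) = 0 := by
  have hr := h.rational v
  have hs := mem_of_ord_nonneg v hv.le
  have h1 : aeval s Q ∈ v.toValuationSubring := mem_of_ord_nonneg v (ord_aeval_nonneg hv.le Q)
  have h2 : evp v (aeval s Q) = Q.coeff 0 := by
    apply evp_unique
    rw [adicValuation_lt_one_iff]
    by_cases h0 : aeval s Q - algebraMap K F (Q.coeff 0) = 0
    · exact Or.inl h0
    right
    have h3 : aeval s Q - algebraMap K F (Q.coeff 0) = s * aeval s Q.divX := by
      have h4 := congrArg (aeval s) Q.divX_mul_X_add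
      rw [map_add, map_mul, Polynomial.aeval_X, Polynomial.aeval_C] at h4
      rw [← h4]
      ring
    rw [h3] at h0 ⊢
    rw [v.ord_mul (left_ne_zero_of_mul h0) (right_ne_zero_of_mul h0)]
    have := ord_aeval_nonneg hv.le Q.divX
    omega
  exact ((evp_ne_zero_iff hr h1).mp (by rw [h2]; exact hQ0)).2

theorem Chg.Q_ne (h : Chg K s u k Q) (hs : Transcendental K s) : aeval s Q ≠ 0 := by
  rw [Ne, aeval_eq_zero_iff hs]
  exact h.mon.ne_zero

/-- the poles of `u` are the zeros of `Q(s)` -/
theorem Chg.pol (h : Chg K s u k Q) (hs : Sep K s) (hu : Sep K u) (v : Place K F) :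
    pol (K := K) u v = max 0 (v.ord (aeval s Q)) := by
  rw [pol_apply (hu.finOrd u)]
  have hQ := h.Q_ne hs.trans
  have h1 := congrArg v.ord h.eq
  rw [v.ord_mul hu.ne_zero hQ, ord_pow] at h1
  have hD : (k : ℤ) < Q.natDegree := by exact_mod_cast h.lt
  have hk0 : (0 : ℤ) ≤ k := Int.natCast_nonneg k
  rcases lt_trichotomy (v.ord s) 0 with h2 | h2 | h2
  · rw [ord_aeval_neg hs.trans h.mon h2] at h1 ⊢
    rw [max_eq_left, max_eq_left]
    · nlinarith
    · nlinarith
  · rw [h2, mul_zero] at h1
    congr 1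
    omega
  · rcases h.zero with h3 | h3
    · rw [h3, Nat.cast_zero, zero_mul] at h1
      congr 1
      omega
    · rw [ord_aeval_pos hs h3 h2] at h1 ⊢
      rw [max_eq_left, max_self]
      nlinarith

/-- comparison of Riemann-Roch spaces -/
theorem Chg.mem_L (h : Chg K s u k Q) (hs : Sep K s) (hu : Sep K u) (n : ℕ) {z : F} :
    z ∈ riemannRochSpace (n • Flat.pol (K := K) u) ↔
      z * aeval s Q ^ n ∈ riemannRochSpace ((n * Q.natDegree) • Flat.pol (K := K) s) := by
  have hQ := h.Q_ne hs.trans
  by_cases hz : z = 0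
  · rw [hz, zero_mul]
    exact ⟨fun _ => zero_mem _, fun _ => zero_mem _⟩
  rw [mem_L' hz, mem_L' (mul_ne_zero hz (pow_ne_zero _ hQ))]
  refine forall_congr' fun v => ?_
  rw [Finsupp.smul_apply, Finsupp.smul_apply, h.pol hs hu, nsmul_eq_mul, nsmul_eq_mul,
    v.ord_mul hz (pow_ne_zero _ hQ), ord_pow, pol_apply (hs.finOrd s)]
  push_cast
  rcases lt_or_ge (v.ord s) 0 with h2 | h2
  · rw [ord_aeval_neg hs.trans h.mon h2, max_eq_left, max_eq_right (by omega)]
    · constructor <;> intro h3 <;> nlinarith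
    · have := Int.natCast_nonneg Q.natDegree
      nlinarith
  · rw [max_eq_right (ord_aeval_nonneg h2 Q), max_eq_left (by omega)]
    constructor <;> intro h3 <;> linarith

end LSp

end Fermat.Agent.GC
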