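import Mathlib
import Fermat.Agent.GC.LSp

/-!
# Change of level: regular functions, values
-/

set_option autoImplicit false
set_option linter.unusedSectionVars false

noncomputable section

namespace Fermat.Agent.GC

open AlgebraicCurve IsDedekindDomain IntermediateField WithZero Module Fermat.Agent.FunField
open Fermat.Agent.Flat Fermat.Agent.MZ
open Polynomial (aeval)

section Lvl

variable {K F F₁ : Type*} [Field K] [Field F] [Field F₁] [Algebra K F] [Algebra K F₁]
  [Algebra F F₁] [IsScalarTower K F F₁] {t z : F}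

/-- evaluation of polynomials at `t` -/
def evK (K : Type*) {F : Type*} [Field K] [Field F] [Algebra K F] (t : F) :
    Polynomial K →+* F := (aeval t : Polynomial K →ₐ[K] F)

theorem evK_apply (t : F) (P : Polynomial K) : evK K t P = aeval t P := rfl

theorem algebraMap_comp_evK (t : F) :
    (algebraMap F F₁).comp (evK K t) = evK K (algebraMap F F₁ t) := by
  ext P
  · simp [evK, ← IsScalarTower.algebraMap_apply]
  · simp [evK]

theorem isIntegralElem_iff : (evK K t).IsIntegralElem z ↔
    IsIntegral (Algebra.adjoin K {t}) z := by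
  constructor
  · rintro ⟨p, hp, hpz⟩
    refine isIntegral_of_monic (evK K t) (fun x => ?_) hp hpz
    rw [Algebra.adjoin_singleton_eq_range_aeval]
    exact ⟨x, rfl⟩
  · intro h
    exact exists_monic_of_isIntegral h

theorem reg_iff (h : Sep K t) : Reg K t z ↔ (evK K t).IsIntegralElem z := by
  rw [isIntegralElem_iff]
  exact ⟨fun hz => h.isIntegral hz, fun hz v hv => ord_nonneg_of_isIntegral hz v hv⟩

/-- integrality in an extension -/
theorem isIntegralElem_up {R : Type*} [CommRing R] (g : R →+* F) :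
    ((algebraMap F F₁).comp g).IsIntegralElem (algebraMap F F₁ z) ↔ g.IsIntegralElem z := by
  constructor
  · rintro ⟨p, hp, hpz⟩
    refine ⟨p, hp, (algebraMap F F₁).injective ?_⟩
    rw [map_zero, ← hpz, Polynomial.hom_eval₂]
  · rintro ⟨p, hp, hpz⟩
    exact ⟨p, hp, by rw [← Polynomial.hom_eval₂, hpz, map_zero]⟩

/-- regular functions and change of level -/
theorem reg_up (h : Sep K t) (h₁ : Sep K (algebraMap F F₁ t)) :
    Reg K (algebraMap F F₁ t) (algebraMap F F₁ z) ↔ Reg K t z := by
  rw [reg_iff h, reg_iff h₁, ← algebraMap_comp_evK, isIntegralElem_up]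

theorem mem_L_up [IsAlgClosed K] (h : Sep K t) (h₁ : Sep K (algebraMap F F₁ t)) {n : ℕ} :
    algebraMap F F₁ z ∈ riemannRochSpace (n • Flat.pol (K := K) (algebraMap F F₁ t)) ↔
      z ∈ riemannRochSpace (n • Flat.pol (K := K) t) := by
  have hi : Sep K (algebraMap F F₁ t⁻¹) := by rw [map_inv₀]; exact h₁.inv
  rw [mem_nL_iff h, mem_nL_iff h₁, reg_up h h₁]
  refine and_congr Iff.rfl ?_
  rw [← reg_up h.inv hi, map_mul, map_pow, map_inv₀]

/-- traces of integral elements -/
theorem isIntegralElem_trace [FiniteDimensional F F₁] [Algebra.IsSeparable F F₁] {R : Type*}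
    [CommRing R] (g : R →+* F)
    {x : F₁} (hx : ((algebraMap F F₁).comp g).IsIntegralElem x) :
    g.IsIntegralElem (Algebra.trace F F₁ x) := by
  let _ := g.toAlgebra
  let _ := ((algebraMap F F₁).comp g).toAlgebra
  have : IsScalarTower R F F₁ := IsScalarTower.of_algebraMap_eq fun _ => rfl
  have h1 : IsIntegral R x := hx
  exact Algebra.isIntegral_trace (L := F) h1

theorem reg_trace [FiniteDimensional F F₁] [Algebra.IsSeparable F F₁] (h : Sep K t)
    (h₁ : Sep K (algebraMap F F₁ t)) {x : F₁} (hx : Reg K (algebraMap F F₁ t) x) :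
    Reg K t (Algebra.trace F F₁ x) := by
  rw [reg_iff h]
  apply isIntegralElem_trace
  rw [algebraMap_comp_evK, ← reg_iff h₁]
  exact hx

theorem mem_L_trace [IsAlgClosed K] [FiniteDimensional F F₁] [Algebra.IsSeparable F F₁]
    (h : Sep K t) (h₁ : Sep K (algebraMap F F₁ t)) {n : ℕ} {x : F₁}
    (hx : x ∈ riemannRochSpace (n • Flat.pol (K := K) (algebraMap F F₁ t))) :
    Algebra.trace F F₁ x ∈ riemannRochSpace (n • Flat.pol (K := K) t) := by
  rw [mem_nL_iff h₁] at hx
  rw [mem_nL_iff h]
  have hi : Sep K (algebraMap F F₁ t⁻¹) := by rw [map_inv₀]; exact h₁.inv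
  refine ⟨reg_trace h h₁ hx.1, ?_⟩
  have h2 : Algebra.trace F F₁ x * t⁻¹ ^ n =
      Algebra.trace F F₁ (x * (algebraMap F F₁ t)⁻¹ ^ n) := by
    rw [← map_inv₀, ← map_pow, mul_comm x, ← Algebra.smul_def, map_smul, smul_eq_mul, mul_comm]
  rw [h2]
  apply reg_trace h.inv hi
  rw [map_inv₀]
  exact hx.2

end Lvl

section Val

variable {Ω F : Type*} [Field Ω] [Field F] [Algebra Ω F] {A : ValuationSubring Ω}

/-- evaluation of polynomials with coefficients in `A` -/
def evA (A : ValuationSubring Ω) (u : F) : Polynomial A →+* F :=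
  (evK Ω u).comp (Polynomial.mapRingHom A.subtype)

theorem evA_apply (u : F) (P : Polynomial A) : evA A u P = aeval u (P.map A.subtype) := rfl

/-- values of integral functions are integral -/
theorem evp_mem_of_isIntegralElem {u z : F} (hr : ∀ v : Place Ω F, Rational v)
    (hz : (evA A u).IsIntegralElem z) (hreg : Reg Ω u z) {v : Place Ω F} {c : A}
    (hv : 0 < v.ord (u - algebraMap Ω F c)) : evp v z ∈ A := by
  obtain ⟨p, hp, hpz⟩ := hz
  have hv0 := ord_t_nonneg hv
  have htv : u ∈ v.toValuationSubring := mem_of_ord_nonneg v hv0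
  have htc : evp v u = c := evp_unique (by rw [adicValuation_lt_one_iff]; exact Or.inr hv)
  let φ : v.toValuationSubring →+* Ω :=
    { toFun := fun x => evp v (x : F)
      map_one' := evp_one
      map_zero' := evp_zero
      map_mul' := fun x y => evp_mul (hr v) x.2 y.2
      map_add' := fun x y => evp_add (hr v) x.2 y.2 }
  let ψ : Polynomial A →+* v.toValuationSubring :=
    Polynomial.eval₂RingHom ((algebraMap Ω v.toValuationSubring).comp A.subtype) ⟨u, htv⟩
  have hψ : ∀ P, ((ψ P : v.toValuationSubring) : F) = evA A u P := by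
    intro P
    rw [evA_apply]
    change v.toValuationSubring.subtype (Polynomial.eval₂ _ _ P) = _
    rw [Polynomial.hom_eval₂, Polynomial.aeval_def, Polynomial.eval₂_map]
    rfl
  have h1 : p.eval₂ ψ ⟨z, hreg.mem hv0⟩ = 0 := by
    apply Subtype.ext
    change v.toValuationSubring.subtype (p.eval₂ ψ _) = 0
    rw [Polynomial.hom_eval₂]
    rw [← hpz]
    congr 1
    exact RingHom.ext fun P => hψ P
  have h2 := congrArg φ h1
  rw [map_zero, Polynomial.hom_eval₂] at h2
  have h3 : φ.comp ψ = A.subtype.comp (Polynomial.evalRingHom c) := by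
    refine Polynomial.ringHom_ext (fun a => ?_) ?_
    · rw [RingHom.comp_apply, RingHom.comp_apply]
      change evp v ((ψ (Polynomial.C a) : v.toValuationSubring) : F) = _
      rw [hψ, evA_apply, Polynomial.map_C, Polynomial.aeval_C, evp_algebraMap]
      simp
    · rw [RingHom.comp_apply, RingHom.comp_apply]
      change evp v ((ψ Polynomial.X : v.toValuationSubring) : F) = _
      rw [hψ, evA_apply, Polynomial.map_X, Polynomial.aeval_X, htc]
      simp
  rw [h3] at h2
  have h4 : IsIntegral A (evp v z) := by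
    refine ⟨p.map (Polynomial.evalRingHom c), hp.map _, ?_⟩
    rw [Polynomial.eval₂_map]
    exact h2
  obtain ⟨w, hw⟩ := IsIntegrallyClosed.isIntegral_iff.mp h4
  rw [← hw]
  exact w.2

end Val

section UInt

variable {Ω κ F E : Type*} [Field Ω] [Field κ] [Field F] [Field E] [Algebra Ω F] [Algebra κ E]
  {A : ValuationSubring Ω} {r : A →+* κ} {W : Subring F} {ρ : W →+* E} {s u : F} {sb : E} {d : ℕ}
  {e : Fin d → F} {k : ℕ} {Q : Polynomial A}

/-- units of a valuation ring given by polynomials -/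
theorem aeval_inv_mem (V : ValuationSubring F) (hA : ∀ a ∈ A, algebraMap Ω F a ∈ V)
    {x : F} (hx : V.valuation x < 1) {P : Polynomial A}
    (h0 : ((P.coeff 0 : A) : Ω)⁻¹ ∈ A) (h0' : P.coeff 0 ≠ 0) :
    (aeval x (P.map A.subtype))⁻¹ ∈ V := by
  have hxV : x ∈ V := (V.valuation_le_one_iff x).mp hx.le
  have h1 : aeval x (P.map A.subtype) = x * aeval x (P.divX.map A.subtype) +
      algebraMap Ω F (P.coeff 0) := by
    have h4 := congrArg (fun Q : Polynomial A => aeval x (Q.map A.subtype)) P.divX_mul_X_add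
    simp only [Polynomial.map_add, Polynomial.map_mul, Polynomial.map_X, Polynomial.map_C,
      map_add, map_mul, Polynomial.aeval_X, Polynomial.aeval_C] at h4
    rw [← h4, mul_comm]
    rfl
  have h2 : aeval x (P.divX.map A.subtype) ∈ V := by
    rw [Polynomial.aeval_def, Polynomial.eval₂_eq_sum_range]
    refine sum_mem fun i _ => mul_mem ?_ (pow_mem hxV _)
    rw [Polynomial.coeff_map]
    exact hA _ (P.divX.coeff i).2
  have h3 : V.valuation (algebraMap Ω F (P.coeff 0)) = 1 := by
    have h5 : (P.coeff 0 : Ω) ≠ 0 := fun h => h0' (Subtype.ext h)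
    have h6 : V.valuation (algebraMap Ω F (P.coeff 0)) *
        V.valuation (algebraMap Ω F (P.coeff 0 : Ω)⁻¹) = 1 := by
      rw [← map_mul, ← map_mul, mul_inv_cancel₀ h5, map_one, map_one]
    refine le_antisymm ((V.valuation_le_one_iff _).mpr (hA _ (P.coeff 0).2)) ?_
    rw [← h6]
    exact mul_le_of_le_one_right' ((V.valuation_le_one_iff _).mpr (hA _ h0))
  have h4 : V.valuation (x * aeval x (P.divX.map A.subtype)) < 1 := by
    rw [map_mul]
    exact mul_lt_one_of_lt_of_le hx ((V.valuation_le_one_iff _).mpr h2)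
  rw [← V.valuation_le_one_iff, map_inv₀, h1, Valuation.map_add_eq_of_lt_right _ (by rw [h3]; exact h4),
    h3, inv_one]

theorem aeval_mem (V : ValuationSubring F) (hA : ∀ a ∈ A, algebraMap Ω F a ∈ V)
    {x : F} (hx : x ∈ V) (P : Polynomial A) : aeval x (P.map A.subtype) ∈ V := by
  rw [Polynomial.aeval_def, Polynomial.eval₂_eq_sum_range]
  refine sum_mem fun i _ => mul_mem ?_ (pow_mem hx _)
  rw [Polynomial.coeff_map]
  exact hA _ (P.coeff i).2

theorem mem_of_evA (V : ValuationSubring F) (hA : ∀ a ∈ A, algebraMap Ω F a ∈ V)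
    {x y : F} (hx : x ∈ V) {p : Polynomial (Polynomial A)} (hp : p.Monic)
    {g : Polynomial A →+* F} (hg : ∀ P, g P = aeval x (P.map A.subtype))
    (hy : p.eval₂ g y = 0) : y ∈ V := by
  refine mem_of_isIntegralElem V ⟨p.map (g.codRestrict V.toSubring fun P => by
    rw [hg]; exact aeval_mem V hA hx P), hp.map _, ?_⟩
  rw [Polynomial.eval₂_map]
  exact hy

/-- integral functions, regular outside the poles of `u`, are integral over `A[u]` -/
theorem isIntegralElem_u [IsAlgClosed Ω] (h : Pre r W ρ s sb e) (hs : Sep Ω s) (hu : Sep Ω u)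
    (hQm : Q.Monic) (hC : Chg Ω s u k (Q.map A.subtype)) (hQ0 : k = 0 ∨ r (Q.coeff 0) ≠ 0)
    {n : ℕ} {z : F} (hz : z ∈ W) (hzL : z ∈ riemannRochSpace (n • Flat.pol (K := Ω) u)) :
    (evA A u).IsIntegralElem z := by
  have hQs := hC.Q_ne hs.trans
  apply isIntegralElem_of_val
  intro V hV
  have hA : ∀ a ∈ A, algebraMap Ω F a ∈ V := fun a ha => by
    have := hV (Polynomial.C ⟨a, ha⟩)
    rw [evA_apply, Polynomial.map_C, Polynomial.aeval_C] at this
    exact this
  have huV : u ∈ V := by
    have := hV Polynomial.X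
    rw [evA_apply, Polynomial.map_X, Polynomial.aeval_X] at this
    exact this
  have hQW : aeval s (Q.map A.subtype) ∈ W := by
    rw [← h.coe_evW]
    exact (h.evW Q).2
  -- the function `y = z Q(s)^n`
  obtain ⟨y, hy⟩ : ∃ y, y = z * aeval s (Q.map A.subtype) ^ n := ⟨_, rfl⟩
  have hyW : y ∈ W := by rw [hy]; exact mul_mem hz (pow_mem hQW n)
  have hyL := (hC.mem_L hs hu n).mp hzL
  rw [← hy, mem_nL_iff hs] at hyL
  obtain ⟨hy1, hy2⟩ := hyL
  have hzy : z = y * (aeval s (Q.map A.subtype))⁻¹ ^ n := by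
    rw [hy, mul_assoc, ← mul_pow, mul_inv_cancel₀ hQs, one_pow, mul_one]
  have hD : (Q.map A.subtype).natDegree = Q.natDegree := hQm.natDegree_map _
  by_cases hsV : s ∈ V
  · obtain ⟨p, hp, hpy⟩ := h.exists_monic hs hyW (hs.isIntegral hy1)
    have hyV : y ∈ V := mem_of_evA V hA hsV hp (fun P => h.evF_apply P) hpy
    rw [hzy]
    refine mul_mem hyV (pow_mem ?_ n)
    have hinv : (aeval s (Q.map A.subtype))⁻¹ = u * (s ^ k)⁻¹ := by
      rw [← hC.eq, mul_inv, ← mul_assoc, mul_inv_cancel₀ hu.ne_zero, one_mul]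
    rcases hQ0 with h0 | h0
    · rw [hinv, h0, pow_zero, inv_one, mul_one]
      exact huV
    · by_cases hsi : s⁻¹ ∈ V
      · rw [hinv, ← inv_pow]
        exact mul_mem huV (pow_mem hsi k)
      · have hlt : V.valuation s < 1 := by
          rw [← V.valuation_le_one_iff, map_inv₀, not_le] at hsi
          rw [one_lt_inv_iff₀] at hsi
          exact hsi.2
        exact aeval_inv_mem V hA hlt (h.unit _ h0) (fun h1 => h0 (by rw [h1, map_zero]))
  · -- the other chart
    have hsi : s⁻¹ ∈ V := (V.mem_or_inv_mem s).resolve_left hsV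
    have hlt : V.valuation s⁻¹ < 1 := by
      rw [← V.valuation_le_one_iff, not_le] at hsV
      rw [map_inv₀]
      exact inv_lt_one_of_one_lt₀ hsV
    have hyW' : y * s⁻¹ ^ (n * (Q.map A.subtype).natDegree) ∈ W :=
      mul_mem hyW (pow_mem h.tinvW _)
    obtain ⟨p, hp, hpy⟩ := h.inv.exists_monic hs.inv hyW' (hs.inv.isIntegral hy2)
    have hyV : y * s⁻¹ ^ (n * (Q.map A.subtype).natDegree) ∈ V :=
      mem_of_evA V hA hsi hp (fun P => h.inv.evF_apply P) hpy
    have hrefl : aeval s⁻¹ ((Polynomial.reflect Q.natDegree Q).map A.subtype) * s ^ Q.natDegree =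
        aeval s (Q.map A.subtype) := by
      rw [← Polynomial.reflect_map]
      exact aeval_reflect hs.ne_zero (le_of_eq hD)
    have hR : (aeval s⁻¹ ((Polynomial.reflect Q.natDegree Q).map A.subtype))⁻¹ ∈ V := by
      have hc : (Polynomial.reflect Q.natDegree Q).coeff 0 = 1 := by
        rw [Polynomial.coeff_reflect, Polynomial.revAt_le (Nat.zero_le _), Nat.sub_zero]
        exact hQm
      refine aeval_inv_mem V hA hlt ?_ ?_
      · rw [hc, OneMemClass.coe_one, inv_one]
        exact one_mem _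
      · rw [hc]
        exact one_ne_zero
    have hzy' : z = y * s⁻¹ ^ (n * (Q.map A.subtype).natDegree) *
        (aeval s⁻¹ ((Polynomial.reflect Q.natDegree Q).map A.subtype))⁻¹ ^ n := by
      rw [hzy, ← hrefl, hD, mul_inv, mul_pow, mul_assoc, mul_comm (_ ^ n), inv_pow s, mul_comm n,
        pow_mul, ← inv_pow (s ^ Q.natDegree)]
    rw [hzy']
    exact mul_mem hyV (pow_mem hR n)

end UInt

end Fermat.Agent.GC
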