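import Mathlib
import Fermat.Agent.GC.Lvl

/-!
# Change of parameter: finiteness and separability
-/

set_option autoImplicit false
set_option linter.unusedSectionVars false

noncomputable section

namespace Fermat.Agent.GC

open AlgebraicCurve IsDedekindDomain IntermediateField WithZero Module Fermat.Agent.FunField
open Fermat.Agent.Flat Fermat.Agent.MZ
open Polynomial (aeval)

section Fd

variable {K E F : Type*} [Field K] [Field E] [Field F] [Algebra K E] [Algebra K F] [Algebra E F]
  [IsScalarTower K E F] {s : F}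

/-- finiteness over another base -/
theorem fd_base (hfd : FiniteDimensional K⟮s⟯ F) (hs : IsIntegral E s) :
    FiniteDimensional E F := by
  classical
  have h1 : FiniteDimensional E E⟮s⟯ := adjoin.finiteDimensional hs
  have h2 : FiniteDimensional E⟮s⟯ F := by
    obtain ⟨S, hS⟩ := hfd.fg_top
    refine ⟨⟨S, ?_⟩⟩
    rw [eq_top_iff]
    rintro x -
    have hx : x ∈ Submodule.span K⟮s⟯ (S : Set F) := by rw [hS]; exact Submodule.mem_top
    have hle : ∀ a : F, a ∈ K⟮s⟯ → a ∈ E⟮s⟯ := by
      intro a ha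
      have h3 : K⟮s⟯ ≤ (E⟮s⟯).restrictScalars K := by
        rw [adjoin_simple_le_iff]
        exact mem_adjoin_simple_self E s
      exact h3 ha
    induction hx using Submodule.span_induction with
    | mem x hx => exact Submodule.subset_span hx
    | zero => exact Submodule.zero_mem _
    | add x y _ _ hx hy => exact Submodule.add_mem _ hx hy
    | smul a x _ hx =>
      have h4 : a • x = (⟨a, hle a a.2⟩ : E⟮s⟯) • x := rfl
      rw [h4]
      exact Submodule.smul_mem _ _ hx
  exact FiniteDimensional.trans E E⟮s⟯ F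

end Fd

section Sepb

variable {κ Fb Fb₁ : Type*} [Field κ] [Field Fb] [Field Fb₁] [Algebra κ Fb] [Algebra κ Fb₁]
  [Algebra Fb Fb₁] [IsScalarTower κ Fb Fb₁] {ub : Fb} {sb : Fb₁} {k : ℕ} {Q : Polynomial κ}

/-- `s` is integral over `κ(u)` -/
theorem isIntegral_s (hu : ub ≠ 0) (hQ : Q.Monic) (hk : k < Q.natDegree)
    (h : algebraMap Fb Fb₁ ub * aeval sb Q = sb ^ k) : IsIntegral κ⟮ub⟯ sb := by
  have hu' : (AdjoinSimple.gen κ ub) ≠ 0 := by
    intro h0
    exact hu (congrArg Subtype.val h0)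
  let P : Polynomial κ⟮ub⟯ := Polynomial.C (AdjoinSimple.gen κ ub) *
    Q.map (algebraMap κ κ⟮ub⟯) - Polynomial.X ^ k
  have hP0 : P ≠ 0 := by
    intro h0
    have h1 : P.coeff Q.natDegree = 0 := by rw [h0, Polynomial.coeff_zero]
    have h2 : Q.coeff Q.natDegree = 1 := hQ
    simp only [P] at h1
    rw [Polynomial.coeff_sub, Polynomial.coeff_C_mul, Polynomial.coeff_map,
      Polynomial.coeff_X_pow, if_neg hk.ne', h2, map_one, mul_one, sub_zero] at h1
    exact hu' h1
  rw [← isAlgebraic_iff_isIntegral]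
  refine ⟨P, hP0, ?_⟩
  simp only [P]
  rw [map_sub, map_mul, Polynomial.aeval_C, Polynomial.aeval_map_algebraMap, map_pow,
    Polynomial.aeval_X, ← h]
  have h3 : algebraMap κ⟮ub⟯ Fb₁ (AdjoinSimple.gen κ ub) = algebraMap Fb Fb₁ ub := by
    rw [IsScalarTower.algebraMap_apply κ⟮ub⟯ Fb Fb₁, AdjoinSimple.algebraMap_gen]
  rw [h3, sub_self]

/-- finiteness at the lower level -/
theorem fd_low (hfd : FiniteDimensional κ⟮sb⟯ Fb₁) (hu : ub ≠ 0) (hQ : Q.Monic)
    (hk : k < Q.natDegree) (h : algebraMap Fb Fb₁ ub * aeval sb Q = sb ^ k) :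
    FiniteDimensional κ⟮ub⟯ Fb := by
  have := fd_base (K := κ) (E := κ⟮ub⟯) hfd (isIntegral_s hu hQ hk h)
  exact FiniteDimensional.left κ⟮ub⟯ Fb Fb₁

/-- transcendence of the new parameter -/
theorem trans_low (hs : Transcendental κ sb) (hu : ub ≠ 0) (hQ : Q.Monic) (hk : k < Q.natDegree)
    (h : algebraMap Fb Fb₁ ub * aeval sb Q = sb ^ k) : Transcendental κ ub := by
  intro halg
  apply hs
  have h1 : Algebra.IsAlgebraic κ κ⟮ub⟯ := isAlgebraic_adjoin_simple halg.isIntegral
  have h2 : IsAlgebraic κ⟮ub⟯ sb := (isIntegral_s hu hQ hk h).isAlgebraic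
  exact h2.restrictScalars κ

end Sepb

end Fermat.Agent.GC
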