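import Mathlib
import Fermat.Agent.GC.Fd

/-!
# Good reduction at a lower level and for other parameters
-/

set_option autoImplicit false
set_option linter.unusedSectionVars false
set_option linter.style.haveILetI false

noncomputable section

namespace Fermat.Agent.GC

open AlgebraicCurve IsDedekindDomain IntermediateField WithZero Module Fermat.Agent.FunField
open Fermat.Agent.Flat Fermat.Agent.MZ
open Polynomial (aeval)

variable {Ω κ F F₁ Fb Fb₁ : Type*} [Field Ω] [Field κ] [Field F] [Field F₁] [Field Fb]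
  [Field Fb₁] [Algebra Ω F] [Algebra Ω F₁] [Algebra F F₁] [IsScalarTower Ω F F₁]
  [Algebra κ Fb] [Algebra κ Fb₁] [Algebra Fb Fb₁] [IsScalarTower κ Fb Fb₁]
  {A : ValuationSubring Ω} {G : Type*} [Group G] [MulSemiringAction G Ω]
  {r : A →+* κ} {γ : G →* SemilinearAut Ω F} {γ₁ : G →* SemilinearAut Ω F₁}
  {W : ValuationSubring F} {ρ : W →+* Fb} {W₁ : Subring F₁} {ρ₁ : W₁ →+* Fb₁}
  {s : F₁} {sb : Fb₁} {d : ℕ} {e : Fin d → F₁} {u : F} {ub : Fb} {k : ℕ} {Q : Polynomial A}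

omit [IsScalarTower Ω F F₁] in
theorem coe_natA (A : ValuationSubring Ω) (n : ℕ) : ((n : A) : Ω) = n := map_natCast A.subtype n

/-- small elements -/
theorem pre_exists_small (h : Pre r W₁ ρ₁ s sb e) {z : W₁} (hz : ρ₁ z = 0) :
    ∃ (a : A) (z' : W₁), r a = 0 ∧ (z : F₁) = algebraMap Ω F₁ a * z' := by
  by_cases hz0 : (z : F₁) = 0
  · exact ⟨0, 0, map_zero r, by rw [hz0]; simp⟩
  obtain ⟨c, hc, hcz, hne⟩ := h.scale z hz0
  have hcA : c ∉ A := by
    intro hcA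
    apply hne
    have : (⟨algebraMap Ω F₁ c * z, hcz⟩ : W₁) = ⟨algebraMap Ω F₁ c, h.alg c hcA⟩ * z := rfl
    rw [this, map_mul, hz, mul_zero]
  have hcA' : c⁻¹ ∈ A := (A.mem_or_inv_mem c).resolve_left hcA
  refine ⟨⟨c⁻¹, hcA'⟩, ⟨_, hcz⟩, ?_, ?_⟩
  · by_contra h'
    have := h.unit _ h'
    rw [inv_inv] at this
    exact hcA this
  · change (z : F₁) = algebraMap Ω F₁ c⁻¹ * (algebraMap Ω F₁ c * z)
    rw [← mul_assoc, ← map_mul, inv_mul_cancel₀ hc, map_one, one_mul]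

/-- `sat` at the lower level -/
theorem sat_low (h : Pre r W₁ ρ₁ s sb e) (hW : ∀ z : F, z ∈ W ↔ algebraMap F F₁ z ∈ W₁)
    (hρ : ∀ z : W, algebraMap Fb Fb₁ (ρ z) = ρ₁ ⟨algebraMap F F₁ z, (hW z).mp z.2⟩)
    (U : Submodule Ω F) (hU : FiniteDimensional Ω U) : ∃ u : Fin (finrank Ω U) → W,
    (∀ i, (u i : F) ∈ U) ∧ LinearIndependent κ fun i => ρ (u i) := by
  let f : F →ₗ[Ω] F₁ := (IsScalarTower.toAlgHom Ω F F₁).toLinearMap
  have hf : Function.Injective f := (algebraMap F F₁).injective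
  have hfin : finrank Ω (U.map f) = finrank Ω U :=
    (Submodule.equivMapOfInjective f hf U).finrank_eq.symm
  obtain ⟨u', hu', hind⟩ := h.sat (U.map f) inferInstance
  choose v hv hvu using fun i => (hu' i : ∃ y, y ∈ U ∧ f y = (u' i : F₁))
  have hvW : ∀ i, v i ∈ W := fun i => (hW _).mpr (by
    have := (u' i).2
    rw [← hvu i] at this
    exact this)
  refine ⟨fun i => ⟨v (Fin.cast hfin.symm i), hvW _⟩, fun i => hv _, ?_⟩
  have h1 : LinearIndependent κ fun i => ρ (⟨v i, hvW i⟩ : W) := by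
    let f' : Fb →ₗ[κ] Fb₁ := (IsScalarTower.toAlgHom κ Fb Fb₁).toLinearMap
    apply LinearIndependent.of_comp f'
    have h2 : (f' ∘ fun i => ρ (⟨v i, hvW i⟩ : W)) = fun i => ρ₁ (u' i) := by
      funext i
      change algebraMap Fb Fb₁ (ρ ⟨v i, hvW i⟩) = _
      rw [hρ]
      congr 1
      exact Subtype.ext (hvu i)
    rw [h2]
    exact hind
  exact h1.comp _ (Fin.cast_injective _)

/-- **Good reduction at a lower level.** -/
theorem goodCrv_low [IsAlgClosed Ω] [IsAlgClosed κ] [FiniteDimensional F F₁]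
    [Algebra.IsSeparable F F₁]
    (h : Pre r W₁ ρ₁ s sb e) (hW : ∀ z : F, z ∈ W ↔ algebraMap F F₁ z ∈ W₁)
    (hρ : ∀ z : W, algebraMap Fb Fb₁ (ρ z) = ρ₁ ⟨algebraMap F F₁ z, (hW z).mp z.2⟩)
    (hsurj : Function.Surjective ρ) (hs : Sep Ω s) (hsb : Sep κ sb) (hu : Sep Ω u)
    (hu₁ : Sep Ω (algebraMap F F₁ u)) (hub : Sep κ ub) (hub₁ : Sep κ (algebraMap Fb Fb₁ ub))
    (hQm : Q.Monic) (hk : k < Q.natDegree) (hQ0 : k = 0 ∨ r (Q.coeff 0) ≠ 0)
    (heq : algebraMap F F₁ u * aeval s (Q.map A.subtype) = s ^ k)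
    (heqb : algebraMap Fb Fb₁ ub * aeval sb (Q.map r) = sb ^ k)
    (hlift : ∃ M : ℕ, ∀ n ≥ M, ∀ zb ∈ riemannRochSpace (n • Flat.pol (K := κ) sb), ∃ z : W₁,
      (z : F₁) ∈ riemannRochSpace (n • Flat.pol (K := Ω) s) ∧ ρ₁ z = zb ∧
        ∀ g : G, γ₁ g • (z : F₁) = z)
    (hn : r ((finrank F F₁ : ℕ) : A) ≠ 0)
    (hint : ∀ x ∈ W₁, ((algebraMap F F₁).comp W.subtype).IsIntegralElem x)
    (hγ : ∀ (g : G) (z : F), algebraMap F F₁ (γ g • z) = γ₁ g • algebraMap F F₁ z)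
    (hfixQ : ∀ g : G, γ₁ g • aeval s (Q.map A.subtype) = aeval s (Q.map A.subtype))
    (hbase : ∀ (g : G) (a : Ω), SemilinearAut.baseAut (γ g) a = g • a)
    (hstab : ∀ (g : G), ∀ z ∈ W, γ g • z ∈ W)
    (htriv : ∀ (g : G) (z : W) (h : γ g • (z : F) ∈ W), ρ ⟨γ g • (z : F), h⟩ = ρ z)
    (hfixu : ∀ g : G, γ g • u = u) : GoodCrv r γ W ρ u ub := by
  have hinj : Function.Injective (algebraMap Fb Fb₁) := (algebraMap Fb Fb₁).injective
  have hC : Chg Ω s (algebraMap F F₁ u) k (Q.map A.subtype) :=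
    ⟨hQm.map _, by rw [hQm.natDegree_map]; exact hk, by
      rcases hQ0 with h0 | h0
      · exact Or.inl h0
      · right
        rw [Polynomial.coeff_map]
        intro h1
        apply h0
        have : Q.coeff 0 = 0 := Subtype.ext h1
        rw [this, map_zero], heq⟩
  have hCb : Chg κ sb (algebraMap Fb Fb₁ ub) k (Q.map r) :=
    ⟨hQm.map _, by rw [hQm.natDegree_map]; exact hk, by
      rcases hQ0 with h0 | h0
      · exact Or.inl h0
      · right
        rw [Polynomial.coeff_map]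
        exact h0, heqb⟩
  have halg : ∀ a ∈ A, algebraMap Ω F a ∈ W := fun a ha => by
    rw [hW, ← IsScalarTower.algebraMap_apply]
    exact h.alg a ha
  have hralg : ∀ (a : A) (h' : algebraMap Ω F a ∈ W),
      ρ ⟨algebraMap Ω F a, h'⟩ = algebraMap κ Fb (r a) := by
    intro a h'
    apply hinj
    refine (hρ _).trans ?_
    rw [← IsScalarTower.algebraMap_apply κ Fb Fb₁, ← h.ralg a (h.alg a a.2)]
    congr 1
    exact Subtype.ext (IsScalarTower.algebraMap_apply Ω F F₁ (a : Ω)).symm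
  have hρ0 : ∀ z : W, ρ z ≠ 0 → ρ₁ ⟨algebraMap F F₁ z, (hW z).mp z.2⟩ ≠ 0 := by
    intro z hz h0
    apply hz
    apply hinj
    rw [hρ, h0, map_zero]
  -- reduction of `Q(s)`
  have hQW : aeval s (Q.map A.subtype) ∈ W₁ := by
    rw [← h.coe_evW]
    exact (h.evW Q).2
  have hQρ : ρ₁ ⟨_, hQW⟩ = aeval sb (Q.map r) := by
    rw [← h.ρ_evW]
    congr 1
    exact Subtype.ext (h.coe_evW Q).symm
  have hQb : aeval sb (Q.map r) ≠ 0 := hCb.Q_ne hsb.trans
  have hQi : (aeval s (Q.map A.subtype))⁻¹ ∈ W₁ := h.runit ⟨_, hQW⟩ (by rw [hQρ]; exact hQb)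
  have hQs := hC.Q_ne hs.trans
  have hDD : (Q.map A.subtype).natDegree = (Q.map r).natDegree := by
    rw [hQm.natDegree_map, hQm.natDegree_map]
  refine
    { sep := hu
      sepb := hub
      surj := h.surj
      unit := h.unit
      alg := halg
      ralg := hralg
      runit := fun z hz => by
        rw [hW, map_inv₀]
        exact h.runit _ (hρ0 z hz)
      scale := ?_
      sat := fun U hU => sat_low h hW hρ U hU
      int := ?_
      lift := ?_
      val := ?_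
      base := hbase
      stab := hstab
      triv := htriv
      fixt := hfixu }
  · -- scale
    intro z hz
    obtain ⟨c, hc, hcz, hne⟩ := h.scale (algebraMap F F₁ z)
      ((map_ne_zero_iff _ (algebraMap F F₁).injective).mpr hz)
    have e1 : algebraMap F F₁ (algebraMap Ω F c * z) = algebraMap Ω F₁ c * algebraMap F F₁ z := by
      rw [map_mul, ← IsScalarTower.algebraMap_apply]
    have hcW : algebraMap Ω F c * z ∈ W := by rw [hW, e1]; exact hcz
    refine ⟨c, hc, hcW, fun h0 => hne ?_⟩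
    have h1 := hρ ⟨_, hcW⟩
    rw [h0, map_zero] at h1
    rw [h1]
    congr 1
    exact Subtype.ext e1.symm
  · -- int
    intro n z hz
    have h1 := (mem_L_up (F₁ := F₁) hu hu₁).mpr hz
    have h2 := (hC.mem_L hs hu₁ n).mp h1
    have h3W : algebraMap F F₁ (z : F) * aeval s (Q.map A.subtype) ^ n ∈ W₁ :=
      mul_mem ((hW z).mp z.2) (pow_mem hQW n)
    have h3 := h.int hs hsb _ (⟨_, h3W⟩ : W₁) h2
    have h4 : ρ₁ ⟨_, h3W⟩ = algebraMap Fb Fb₁ (ρ z) * aeval sb (Q.map r) ^ n := by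
      have h5 : (⟨_, h3W⟩ : W₁) = ⟨algebraMap F F₁ z, (hW z).mp z.2⟩ * ⟨_, hQW⟩ ^ n := rfl
      rw [h5, map_mul, map_pow, hQρ, ← hρ]
    rw [h4, hDD, ← hCb.mem_L hsb hub₁ n] at h3
    exact (mem_L_up hub hub₁).mp h3
  · -- lift
    obtain ⟨M, hM⟩ := hlift
    refine ⟨M, fun n hn' zb hzb => ?_⟩
    have h1 := (mem_L_up (F₁ := Fb₁) hub hub₁).mpr hzb
    have h2 := (hCb.mem_L hsb hub₁ n).mp h1
    have hD1 : 1 ≤ (Q.map r).natDegree := by
      have := hCb.lt
      omega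
    obtain ⟨y, hy, hyρ, hyγ⟩ := hM (n * (Q.map r).natDegree)
      (hn'.trans (Nat.le_mul_of_pos_right n hD1)) _ h2
    -- the function of level `F₁`
    obtain ⟨z₁, hz₁⟩ : ∃ z₁ : W₁, (z₁ : F₁) = (y : F₁) * (aeval s (Q.map A.subtype))⁻¹ ^ n :=
      ⟨⟨_, mul_mem y.2 (pow_mem hQi n)⟩, rfl⟩
    have hz₁y : (z₁ : F₁) * aeval s (Q.map A.subtype) ^ n = y := by
      rw [hz₁, mul_assoc, ← mul_pow, inv_mul_cancel₀ hQs, one_pow, mul_one]
    have hz₁L : (z₁ : F₁) ∈ riemannRochSpace (n • Flat.pol (K := Ω) (algebraMap F F₁ u)) := by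
      rw [hC.mem_L hs hu₁, hz₁y, hDD]
      exact hy
    have hz₁ρ : ρ₁ z₁ = algebraMap Fb Fb₁ zb := by
      apply mul_right_cancel₀ (pow_ne_zero n hQb)
      rw [← hyρ, ← hQρ, ← map_pow, ← map_mul]
      congr 1
      exact Subtype.ext hz₁y
    have hz₁γ : ∀ g : G, γ₁ g • (z₁ : F₁) = z₁ := by
      intro g
      rw [hz₁, smul_mul', smul_pow', smul_inv'', hyγ, hfixQ]
    -- its trace
    obtain ⟨z₀, hz₀⟩ := hsurj zb
    have hεW : (z₁ : F₁) - algebraMap F F₁ (z₀ : F) ∈ W₁ := sub_mem z₁.2 ((hW _).mp z₀.2)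
    have hερ : ρ₁ ⟨_, hεW⟩ = 0 := by
      have h3 : (⟨_, hεW⟩ : W₁) = z₁ - ⟨algebraMap F F₁ z₀, (hW z₀).mp z₀.2⟩ := rfl
      rw [h3, map_sub, hz₁ρ, ← hρ, hz₀, sub_self]
    obtain ⟨a, ε', ha, hε'⟩ := pre_exists_small h hερ
    have hTr : Algebra.trace F F₁ (ε' : F₁) ∈ W := by
      have h3 := isIntegralElem_trace W.subtype (hint ε' ε'.2)
      exact mem_of_isIntegralElem W h3
    have hn0 : ((finrank F F₁ : ℕ) : Ω)⁻¹ ∈ A := by
      have := h.unit _ hn
      rwa [coe_natA] at this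
    have hnΩ : ((finrank F F₁ : ℕ) : Ω) ≠ 0 := by
      intro h0
      apply hn
      have h3 : ((finrank F F₁ : ℕ) : A) = 0 := Subtype.ext (by
        rw [coe_natA]
        exact h0)
      rw [h3, map_zero]
    have hTz : Algebra.trace F F₁ (z₁ : F₁) = ((finrank F F₁ : ℕ) : F) * z₀ +
        algebraMap Ω F a * Algebra.trace F F₁ (ε' : F₁) := by
      have h3 : (z₁ : F₁) = algebraMap F F₁ (z₀ : F) + algebraMap F F₁ (algebraMap Ω F a) * ε' := by
        rw [← IsScalarTower.algebraMap_apply, ← hε']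
        ring
      rw [h3, map_add, Algebra.trace_algebraMap, nsmul_eq_mul, ← Algebra.smul_def, map_smul,
        smul_eq_mul]
    obtain ⟨c, hc⟩ : ∃ c : A, (c : Ω) = ((finrank F F₁ : ℕ) : Ω)⁻¹ := ⟨⟨_, hn0⟩, rfl⟩
    obtain ⟨z, hz⟩ : ∃ z : W, (z : F) = algebraMap Ω F c * Algebra.trace F F₁ (z₁ : F₁) := by
      refine ⟨⟨_, mul_mem (halg c c.2) ?_⟩, rfl⟩
      rw [hTz]
      exact add_mem (mul_mem (by
        have h3 := halg _ ((finrank F F₁ : ℕ) : A).2
        rw [coe_natA, map_natCast] at h3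
        exact h3) z₀.2) (mul_mem (halg a a.2) hTr)
    have hz' : z = z₀ + ⟨algebraMap Ω F c, halg c c.2⟩ * (⟨algebraMap Ω F a, halg a a.2⟩ *
        ⟨_, hTr⟩) := by
      apply Subtype.ext
      rw [hz, hTz]
      change _ = (z₀ : F) + algebraMap Ω F c * (algebraMap Ω F a * Algebra.trace F F₁ (ε' : F₁))
      rw [mul_add, ← mul_assoc, hc]
      congr 1
      rw [← map_natCast (algebraMap Ω F), ← map_mul, inv_mul_cancel₀ hnΩ, map_one, one_mul]
    refine ⟨z, ?_, ?_, fun g => ?_⟩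
    · rw [hz, ← Algebra.smul_def]
      exact Submodule.smul_mem _ _ (mem_L_trace hu hu₁ hz₁L)
    · rw [hz', map_add, map_mul, map_mul, hralg a, ha, map_zero, zero_mul, mul_zero, add_zero, hz₀]
    · have hcg : γ g • algebraMap Ω F c = algebraMap Ω F c := by
        have e0 : g • ((finrank F F₁ : ℕ) : Ω) = (finrank F F₁ : ℕ) :=
          map_natCast (MulSemiringAction.toRingHom G Ω g) _
        rw [SemilinearAut.smul_algebraMap, hbase, hc, smul_inv'', e0]
      rw [hz, smul_mul', hcg]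
      congr 1
      let e1 : F ≃+* F := MulSemiringAction.toRingEquiv _ F (γ g)
      let e2 : F₁ ≃+* F₁ := MulSemiringAction.toRingEquiv _ F₁ (γ₁ g)
      have h3 := Algebra.trace_eq_of_equiv_equiv e1 e2 (by
        ext x
        exact hγ g x) (z₁ : F₁)
      have h4 : e2 (z₁ : F₁) = z₁ := hz₁γ g
      rw [h4] at h3
      have h5 := congrArg e1 h3
      rw [RingEquiv.apply_symm_apply] at h5
      exact h5
  · -- val
    intro v c hv z hz
    obtain ⟨n, hn'⟩ := Reg.exists_mem hu hz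
    have h1 := (mem_L_up (F₁ := F₁) hu hu₁).mpr (hn' n le_rfl)
    have h2 := isIntegralElem_u h hs hu₁ hQm hC hQ0 ((hW z).mp z.2) h1
    have h3 : (algebraMap F F₁).comp (evA A u) = evA A (algebraMap F F₁ u) := by
      rw [evA, ← RingHom.comp_assoc, algebraMap_comp_evK]
      rfl
    rw [← h3, isIntegralElem_up] at h2
    exact evp_mem_of_isIntegralElem hu.rational h2 hz hv

end Fermat.Agent.GC
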