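import Mathlib
import Fermat.Agent.GC.Main
import Fermat.Agent.MZ.FbKMul

/-!
# Good reduction of `X₀(M)`: the concrete cases
-/

set_option autoImplicit false
set_option linter.unusedSectionVars false
set_option linter.style.haveILetI false
set_option synthInstance.maxHeartbeats 400000

noncomputable section

namespace Fermat.Agent.GC

open AlgebraicCurve IsDedekindDomain IntermediateField WithZero Module Fermat.Agent.FunField
open Fermat.Agent.Flat Fermat.Agent.MZ Fermat.Agent.Lf Fermat.Agent.MP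
open Fermat.Agent.LG Fermat.Agent.ModFun Fermat.Agent.Geo
open Fermat.Agent.ESCore (HauptFn haupt2 haupt3 ιC)
open IsLocalRing ModularCurve
open Polynomial (aeval)

/-- The field of algebraic numbers. -/
local notation "Qb" => AlgebraicClosure ℚ
/-- The absolute Galois group. -/
local notation "GQ" => (AlgebraicClosure ℚ ≃ₐ[ℚ] AlgebraicClosure ℚ)

section SepLow

variable {κ Fb Fb₁ : Type*} [Field κ] [Field Fb] [Field Fb₁] [Algebra κ Fb] [Algebra κ Fb₁]
  [Algebra Fb Fb₁] [IsScalarTower κ Fb Fb₁] {ub : Fb} {sb : Fb₁} {k : ℕ} {Q : Polynomial κ}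

/-- separability of the new parameter -/
theorem sep_low {Ξ : Type*} [Field Ξ] [Algebra κ Ξ] [PerfectField κ] (hs : Sep κ sb)
    (hu : ub ≠ 0) (hQ : Q.Monic)
    (hk : k < Q.natDegree) (h : algebraMap Fb Fb₁ ub * aeval sb Q = sb ^ k) (φ : Fb →ₐ[κ] Ξ)
    (D : Derivation κ Ξ Ξ) (hD : D (φ ub) ≠ 0) : Sep κ ub := by
  have hfd := fd_low hs.fd hu hQ hk h
  exact ⟨trans_low hs.trans hu hQ hk h, hfd, sep_of_derivation hfd φ D hD⟩

end SepLow

variable {A : ValuationSubring Qb} {q : ℕ}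

section WV

variable (hq : q.Prime) (hA : A.LiesOverPrime q) (M : ℕ) [NeZero M]

/-- the Gauss valuation ring of `F0 Qb M` -/
def WV : ValuationSubring (F0 Qb M) where
  toSubring := W0 A M
  mem_or_inv_mem' x := by
    by_cases hx : x = 0
    · left
      rw [hx]
      exact zero_mem (W0 A M)
    have hx' : (x : LaurentSeries Qb) ≠ 0 := fun h => hx (Subtype.ext h)
    obtain ⟨c, hc0, hc, hr⟩ := exists_scale hq hA x.2 hx'
    have hC0 : (HahnSeries.C c : LaurentSeries Qb) ≠ 0 := by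
      rw [Ne, map_eq_zero_iff _ HahnSeries.C_injective]; exact hc0
    rcases A.mem_or_inv_mem c with hcA | hcA
    · right
      change (x : LaurentSeries Qb)⁻¹ ∈ gA A
      obtain ⟨h1, -⟩ := inv_gA hc hr
      have h2 : (x : LaurentSeries Qb)⁻¹ = HahnSeries.C c *
          (HahnSeries.C c * (x : LaurentSeries Qb))⁻¹ := by
        rw [mul_inv, ← mul_assoc, mul_inv_cancel₀ hC0, one_mul]
      rw [h2]
      exact mul_mem (C_mem_gA ⟨c, hcA⟩) h1
    · left
      change (x : LaurentSeries Qb) ∈ gA A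
      have h2 : (x : LaurentSeries Qb) = HahnSeries.C c⁻¹ *
          (HahnSeries.C c * (x : LaurentSeries Qb)) := by
        rw [map_inv₀, ← mul_assoc, inv_mul_cancel₀ hC0, one_mul]
      rw [h2]
      exact mul_mem (C_mem_gA ⟨c⁻¹, hcA⟩) hc

theorem mem_WV {x : F0 Qb M} : x ∈ WV hq hA M ↔ (x : LaurentSeries Qb) ∈ gA A := Iff.rfl

/-- the reduction map -/
def ρV : WV hq hA M →+* FbK A M := (ρ0 A M).codRestrict (FbK A M) ρ0_mem_FbK

theorem coe_ρV (x : WV hq hA M) :
    (ρV hq hA M x : LaurentSeries (ResidueField A)) = gAR ⟨((x : F0 Qb M) : LaurentSeries Qb), x.2⟩ :=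
  rfl

theorem ρV_surjective : Function.Surjective (ρV hq hA M) := by
  rintro ⟨x, hx⟩
  obtain ⟨z, hz⟩ := exists_of_mem_FbK hx
  exact ⟨z, Subtype.ext hz⟩

end WV

section Core

variable {p : ℕ} [Fact p.Prime] {κ : ℤ} {M M₁ : ℕ} [NeZero M] [NeZero M₁]

/-- evaluation of integral polynomials -/
def evZ {R : Type*} [CommRing R] (x : R) (Q : Polynomial ℤ) : R := Q.eval₂ (Int.castRingHom R) x

theorem evZ_map {R S : Type*} [CommRing R] [CommRing S] (f : R →+* S) (x : R)
    (Q : Polynomial ℤ) : f (evZ x Q) = evZ (f x) Q := by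
  rw [evZ, Polynomial.hom_eval₂, evZ]
  congr 1
  exact RingHom.ext_int _ _

theorem aeval_map_int {R S : Type*} [CommRing R] [CommRing S] [Algebra R S] (x : S)
    (Q : Polynomial ℤ) : aeval x (Q.map (Int.castRingHom R)) = evZ x Q := by
  rw [Polynomial.aeval_def, Polynomial.eval₂_map, evZ]
  congr 1
  exact RingHom.ext_int _ _

set_option maxHeartbeats 2000000 in
theorem goodCrv_core (hq : q.Prime) (hA : A.LiesOverPrime q) (hqM : ¬ q ∣ M₁) (hp : p ∣ M₁)
    {H : HauptFn p κ} {S : Set ℤ} {k₀ : ℕ} {P : Polynomial ℤ} (hH : HautData H S k₀ P)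
    (hS : ∀ c ∈ S, ∀ c' ∈ S, c ≠ c' →
      IsUnit ((c - c' : ℤ) : A.comap (algebraMap (KI A) Qb)))
    (hMM : M ∣ M₁)
    (hfd : letI := algI (F0_mono (K := Qb) hMM); FiniteDimensional (F0 Qb M) (F0 Qb M₁))
    (hn : letI := algI (F0_mono (K := Qb) hMM);
      ((finrank (F0 Qb M) (F0 Qb M₁) : ℕ) : ResidueField A) ≠ 0)
    (hU : letI := algI (F0_mono (K := Qb) hMM);
      ∀ {d : ℕ} {e : Fin d → F0 Qb M₁}
        (h : Pre (residue A) (W0 A M₁) (ρ0 A M₁) (tF H hp) (tS (ResidueField A) p κ) e),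
        Uniq h (F0 Qb M))
    {Q : Polynomial ℤ} (hQ : Q.Monic) {k : ℕ} (hk : k < Q.natDegree)
    (hQ0 : k = 0 ∨ ((Q.coeff 0 : ℤ) : ResidueField A) ≠ 0) {u : F0 Qb M} {ub : FbK A M}
    (hu : (u : LaurentSeries Qb) * evZ (tS Qb p κ) Q = tS Qb p κ ^ k)
    (hub : (ub : LaurentSeries (ResidueField A)) * evZ (tS (ResidueField A) p κ) Q =
      tS (ResidueField A) p κ ^ k)
    (hsep : Sep Qb u)
    (hsep₁ : letI := algI (F0_mono (K := Qb) hMM); Sep Qb (algebraMap (F0 Qb M) (F0 Qb M₁) u))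
    (hub0 : ub ≠ 0) (hθ : thD (ub : LaurentSeries (ResidueField A)) ≠ 0)
    (GG : Subgroup GQ) (hG : GG ≤ A.inertiaSubgroupIn ℚ) :
    GoodCrv (residue A) ((galF0 M).comp GG.subtype) (WV hq hA M) (ρV hq hA M) u ub := by
  have hac : IsAlgClosed (ResidueField A) := isAlgClosed_residueA hq hA
  letI := algI (F0_mono (K := Qb) hMM)
  haveI := hfd
  haveI : IsScalarTower Qb (F0 Qb M) (F0 Qb M₁) :=
    IsScalarTower.of_algebraMap_eq fun _ => Subtype.ext rfl
  haveI : CharZero (F0 Qb M) := charZero_of_injective_algebraMap (algebraMap Qb (F0 Qb M)).injective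
  haveI : Algebra.IsSeparable (F0 Qb M) (F0 Qb M₁) :=
    Algebra.IsAlgebraic.isSeparable_of_perfectField
  obtain ⟨d, e, h, Mb, hMb⟩ := lift_of_level hq hA hqM hp hH hS
  have hle : FbK A M ≤ h.Fb := by
    rw [FbK, IntermediateField.adjoin_le_iff]
    rintro _ ⟨z, rfl⟩
    exact ⟨⟨algebraMap (F0 Qb M) (F0 Qb M₁) z, z.2⟩, rfl⟩
  letI := algI hle
  haveI : IsScalarTower (ResidueField A) (FbK A M) h.Fb :=
    IsScalarTower.of_algebraMap_eq fun _ => Subtype.ext rfl
  have hI := inert_residue hq hA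
  have hgA : ∀ (g : GG) (x : LaurentSeries Qb) (hx : x ∈ gA A),
      ∃ h : coeffMap ((MulSemiringAction.toRingEquiv GG Qb g : Qb ≃+* Qb) : Qb →+* Qb) x ∈ gA A,
        gAR ⟨_, h⟩ = gAR ⟨x, hx⟩ := fun g x hx =>
    coeffMap_mem_gA (σ := MulSemiringAction.toRingEquiv GG Qb g)
      (fun a ha => hI.stab ⟨g, hG g.2⟩ a ha)
      (fun a => hI.triv ⟨g, hG g.2⟩ a (hI.stab ⟨g, hG g.2⟩ a a.2)) hx
  have hsb : Sep (ResidueField A) h.tbb := sep_tbb h
  have hcoeM : ∀ (g : GG) (x : F0 Qb M), ((((galF0 M).comp GG.subtype) g • x : F0 Qb M) :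
      LaurentSeries Qb) = coeffMap ((MulSemiringAction.toRingEquiv GG Qb g : Qb ≃+* Qb) :
        Qb →+* Qb) x := fun g x => rfl
  have hcoeM₁ : ∀ (g : GG) (x : F0 Qb M₁), ((((galF0 M₁).comp GG.subtype) g • x : F0 Qb M₁) :
      LaurentSeries Qb) = coeffMap ((MulSemiringAction.toRingEquiv GG Qb g : Qb ≃+* Qb) :
        Qb →+* Qb) x := fun g x => rfl
  -- the equations
  have hs1 : ∀ R : Polynomial ℤ, ((aeval (tF H hp) (R.map (Int.castRingHom Qb)) : F0 Qb M₁) :
      LaurentSeries Qb) = evZ (tS Qb p κ) R := by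
    intro R
    rw [aeval_map_int]
    exact evZ_map ((F0 Qb M₁).val : F0 Qb M₁ →+* LaurentSeries Qb) (tF H hp) R
  have hs2 : ∀ R : Polynomial ℤ, ((aeval h.tbb (R.map (Int.castRingHom (ResidueField A))) :
      h.Fb) : LaurentSeries (ResidueField A)) = evZ (tS (ResidueField A) p κ) R := by
    intro R
    rw [h.coe_aeval, aeval_map_int]
  have hmapA : (Q.map (Int.castRingHom A)).map A.subtype = Q.map (Int.castRingHom Qb) := by
    rw [Polynomial.map_map]
    congr 1
  have hmapr : (Q.map (Int.castRingHom A)).map (residue A) =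
      Q.map (Int.castRingHom (ResidueField A)) := by
    rw [Polynomial.map_map]
    congr 1
  have hQA : (Q.map (Int.castRingHom A)).Monic := hQ.map _
  have hdeg : (Q.map (Int.castRingHom A)).natDegree = Q.natDegree := hQ.natDegree_map _
  have hdegb : (Q.map (Int.castRingHom (ResidueField A))).natDegree = Q.natDegree :=
    hQ.natDegree_map _
  have heq : algebraMap (F0 Qb M) (F0 Qb M₁) u *
      aeval (tF H hp) ((Q.map (Int.castRingHom A)).map A.subtype) = tF H hp ^ k := by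
    apply Subtype.ext
    change (u : LaurentSeries Qb) *
      ((aeval (tF H hp) ((Q.map (Int.castRingHom A)).map A.subtype) : F0 Qb M₁) :
        LaurentSeries Qb) = ((tF H hp ^ k : F0 Qb M₁) : LaurentSeries Qb)
    rw [hmapA, hs1, hu]
    rfl
  have heqb : algebraMap (FbK A M) h.Fb ub *
      aeval h.tbb (Q.map (Int.castRingHom (ResidueField A))) = h.tbb ^ k := by
    apply Subtype.ext
    change (ub : LaurentSeries (ResidueField A)) *
      ((aeval h.tbb (Q.map (Int.castRingHom (ResidueField A))) : h.Fb) :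
        LaurentSeries (ResidueField A)) = ((h.tbb ^ k : h.Fb) : LaurentSeries (ResidueField A))
    rw [hs2, hub]
    rfl
  obtain ⟨D, hD⟩ := exists_thDk (ResidueField A)
  have hsepb : Sep (ResidueField A) ub := by
    refine sep_low hsb hub0 (hQ.map _) (by rw [hdegb]; exact hk) heqb (FbK A M).val D ?_
    rw [hD]
    exact hθ
  have hsepb₁ : Sep (ResidueField A) (algebraMap (FbK A M) h.Fb ub) := by
    refine sep_low (Fb₁ := h.Fb) hsb ?_ (hQ.map _) (by rw [hdegb]; exact hk) heqb h.Fb.val D ?_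
    · rw [map_ne_zero_iff _ (algebraMap (FbK A M) h.Fb).injective]
      exact hub0
    · rw [hD]
      exact hθ
  have hfixL : ∀ (g : GG) (R : Polynomial ℤ),
      coeffMap ((MulSemiringAction.toRingEquiv GG Qb g : Qb ≃+* Qb) : Qb →+* Qb)
        (evZ (tS Qb p κ) R) = evZ (tS Qb p κ) R := fun g R => by
    rw [evZ_map, coeffMap_tS']
  refine goodCrv_low (γ₁ := (galF0 M₁).comp GG.subtype) h.red (fun z => Iff.rfl)
    (fun z => rfl) (ρV_surjective hq hA M) (sep_tF H hp) hsb hsep hsep₁ hsepb hsepb₁ hQA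
    (by rw [hdeg]; exact hk) ?_ heq (by rw [hmapr]; exact heqb) ⟨Mb, fun n hn' zb hzb => ?_⟩
    ?_ (fun x hx => isIntegralElem_of_val _ fun V hV =>
      hU h V (fun y hy => hV ⟨y, hy⟩) x hx) (fun g z => Subtype.ext ?_) ?_ (fun g a => rfl) ?_ ?_ ?_
  · rcases hQ0 with h0 | h0
    · exact Or.inl h0
    · right
      rw [Polynomial.coeff_map]
      change residue A ((Q.coeff 0 : ℤ) : A) ≠ 0
      rw [map_intCast]
      exact h0
  · obtain ⟨z, hz1, hz2, zL, hzL⟩ := hMb n hn' zb hzb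
    refine ⟨z, hz1, hz2, fun g => ?_⟩
    apply Subtype.ext
    rw [hcoeM₁, hzL, coe_liftF]
    ext i
    exact mem_KI.mp ((zL : LaurentSeries (KI A)).coeff i).2 g (hG g.2)
  · rw [map_natCast]
    exact hn
  · rfl
  · intro g
    apply Subtype.ext
    rw [hcoeM₁, hmapA, hs1, hfixL]
  · intro g z hz
    rw [mem_WV, hcoeM]
    exact (hgA g _ hz).1
  · intro g z hz
    apply Subtype.ext
    rw [coe_ρV, coe_ρV]
    refine Eq.trans ?_ (hgA g _ z.2).2
    congr 1
  · intro g
    apply Subtype.ext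
    rw [hcoeM]
    have hQne : evZ (tS Qb p κ) Q ≠ 0 := by
      intro h0
      rw [h0, mul_zero] at hu
      exact pow_ne_zero k tS_ne_zero hu.symm
    apply mul_right_cancel₀ hQne
    have h1 := congrArg (coeffMap
      ((MulSemiringAction.toRingEquiv GG Qb g : Qb ≃+* Qb) : Qb →+* Qb)) hu
    rw [map_mul, hfixL, map_pow, coeffMap_tS'] at h1
    rw [h1, hu]

end Core

end Fermat.Agent.GC
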