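import Mathlib
import Fermat.Agent.GC.Conc

/-!
# Good reduction of `X₀(M)`: parameters `(j - a)⁻¹` and `(t - a)⁻¹`
-/

set_option autoImplicit false
set_option linter.unusedSectionVars false
set_option linter.style.haveILetI false
set_option synthInstance.maxHeartbeats 400000

noncomputable section

namespace Fermat.Agent.GC

open AlgebraicCurve IsDedekindDomain IntermediateField WithZero Module Fermat.Agent.FunField
open Fermat.Agent.Flat Fermat.Agent.MZ Fermat.Agent.Lf Fermat.Agent.MP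
open Fermat.Agent.LG Fermat.Agent.ModFun Fermat.Agent.Geo
open Fermat.Agent.ESCore (HauptFn haupt2 haupt3 ιC)
open IsLocalRing ModularCurve
open Polynomial (aeval)

/-- The field of algebraic numbers. -/
local notation "Qb" => AlgebraicClosure ℚ
/-- The absolute Galois group. -/
local notation "GQ" => (AlgebraicClosure ℚ ≃ₐ[ℚ] AlgebraicClosure ℚ)

section Ser

variable {p : ℕ} [Fact p.Prime] {κ : ℤ} {H : HauptFn p κ} {S : Set ℤ} {k : ℕ}
  {P : Polynomial ℤ}

theorem coeffMap_inj {R R' : Type*} [CommRing R] [CommRing R'] {f : R →+* R'}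
    (hf : Function.Injective f) : Function.Injective (coeffMap f) := by
  intro x y h
  ext n
  exact hf (congrArg (fun z : LaurentSeries R' => z.coeff n) h)

theorem ser_evZ (hH : HautData H S k P) (R : Type*) [CommRing R] :
    jqModC R * tS R p κ ^ k = evZ (tS R p κ) P := by
  have h1 := hH.series ιC
  rw [Polynomial.eval₂_map] at h1
  have h3 : (HahnSeries.C : Qb →+* LaurentSeries Qb).comp (Int.castRingHom Qb) =
      Int.castRingHom (LaurentSeries Qb) := RingHom.ext_int _ _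
  rw [h3] at h1
  have h4 : jqModC ℤ * tS ℤ p κ ^ k = evZ (tS ℤ p κ) P := by
    apply coeffMap_inj (f := Int.castRingHom Qb) (by
      intro a b hab
      have : (a : Qb) = b := hab
      exact_mod_cast this)
    rw [map_mul, map_pow, coeffMap_jqModC, coeffMap_tS', evZ_map, coeffMap_tS']
    exact h1
  have h5 := congrArg (coeffMap (Int.castRingHom R)) h4
  rwa [map_mul, map_pow, coeffMap_jqModC, coeffMap_tS', evZ_map, coeffMap_tS'] at h5

theorem evZ_sub {R : Type*} [CommRing R] (x : R) (P Q : Polynomial ℤ) :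
    evZ x (P - Q) = evZ x P - evZ x Q := Polynomial.eval₂_sub _

theorem evZ_CX {R : Type*} [CommRing R] (x : R) (a : ℤ) (k : ℕ) :
    evZ x (Polynomial.C a * Polynomial.X ^ k) = (a : R) * x ^ k := by
  rw [evZ, Polynomial.eval₂_mul, Polynomial.eval₂_C, Polynomial.eval₂_X_pow]
  rfl

/-- the equation of `(j - a)⁻¹` over `t` -/
theorem inv_evZ (hH : HautData H S k P) {R : Type*} [Field R] (a : ℤ)
    (h : jqModC R - HahnSeries.C (a : R) ≠ 0) :
    (jqModC R - HahnSeries.C (a : R))⁻¹ *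
      evZ (tS R p κ) (P - Polynomial.C a * Polynomial.X ^ k) = tS R p κ ^ k := by
  rw [evZ_sub, evZ_CX, ← ser_evZ hH R]
  have e : (HahnSeries.C (a : R) : LaurentSeries R) = (a : LaurentSeries R) := map_intCast _ a
  rw [e] at h ⊢
  rw [← sub_mul, ← mul_assoc, inv_mul_cancel₀ h, one_mul]

theorem inv_evZT {R : Type*} [Field R] (a : ℤ)
    (h : tS R p κ - HahnSeries.C (a : R) ≠ 0) :
    (tS R p κ - HahnSeries.C (a : R))⁻¹ *
      evZ (tS R p κ) (Polynomial.X - Polynomial.C a) = tS R p κ ^ 0 := by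
  have e : (HahnSeries.C (a : R) : LaurentSeries R) = (a : LaurentSeries R) := map_intCast _ a
  have e2 : evZ (tS R p κ) (Polynomial.X - Polynomial.C a) = tS R p κ - (a : LaurentSeries R) := by
    rw [evZ_sub, evZ, Polynomial.eval₂_X, evZ, Polynomial.eval₂_C]
    rfl
  rw [e2, pow_zero, ← e, inv_mul_cancel₀ h]

theorem thD_jq_ne {R : Type*} [Field R] (a : R) :
    thD (jqModC R - HahnSeries.C a) ≠ 0 := by
  intro h
  rw [map_sub, thD_C, sub_zero] at h
  have h1 := congrArg (fun z : LaurentSeries R => z.coeff (-1)) h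
  simp only [thD_coeff, jqModC_coeff_neg_one] at h1
  simp at h1

theorem thD_tS_ne {R : Type*} [Field R] (a : R) :
    thD (tS R p κ - HahnSeries.C a) ≠ 0 := by
  intro h
  rw [map_sub, thD_C, sub_zero] at h
  exact thD_tS_ne_zero h

theorem thD_inv_ne {R : Type*} [Field R] {x : LaurentSeries R} (h : thD x ≠ 0) :
    thD x⁻¹ ≠ 0 := by
  intro h0
  have hx : x ≠ 0 := by
    rintro rfl
    exact h (map_zero _)
  have h1 : thD (x * x⁻¹) = x * thD x⁻¹ + x⁻¹ * thD x := thFun_mul x x⁻¹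
  have h2 : thD (1 : LaurentSeries R) = 0 := by
    rw [← map_one (HahnSeries.C : R →+* LaurentSeries R)]
    exact thD_C 1
  rw [mul_inv_cancel₀ hx, h2, h0, mul_zero, zero_add] at h1
  exact mul_ne_zero (inv_ne_zero hx) h h1.symm

end Ser

section J

variable {A : ValuationSubring Qb} {q : ℕ} {M : ℕ} [NeZero M]

theorem jq_mem_FbK (A : ValuationSubring Qb) (M : ℕ) [NeZero M] :
    jqModC (ResidueField A) ∈ FbK A M := by
  obtain ⟨h, hr⟩ := jq_gA (A := A)
  rw [← hr]
  exact ρ0_mem_FbK ⟨jF Qb M, h⟩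

/-- the function `j` on the reduction -/
def jFb (A : ValuationSubring Qb) (M : ℕ) [NeZero M] : FbK A M :=
  ⟨jqModC (ResidueField A), jq_mem_FbK A M⟩

theorem coe_jFb : (jFb A M : LaurentSeries (ResidueField A)) = jqModC (ResidueField A) := rfl

variable {p : ℕ} [Fact p.Prime] {κ : ℤ} {N : ℕ} [NeZero N]

theorem goodCrv_J_of {H : HauptFn p κ} {S : Set ℤ} {k : ℕ} {P : Polynomial ℤ}
    (hH : HautData H S k P) {M₁ : ℕ} [NeZero M₁] (hp : p ∣ M₁)
    (hS : ∀ c ∈ S, ∀ c' ∈ S, c ≠ c' → IsUnit ((c - c' : ℤ) : A.comap (algebraMap (KI A) Qb)))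
    (hq : q.Prime) (hq5 : 5 ≤ q) (hA : A.LiesOverPrime q) (hM : M ∣ M₁) (hM' : M₁ ∣ 36 * M)
    (hqM : ¬ q ∣ M₁) (hP : P.Monic) (hk0 : 0 < k)
    (hk : k < P.natDegree) (hP0 : ((P.coeff 0 : ℤ) : ResidueField A) ≠ 0)
    (a : ℤ) (GG : Subgroup GQ) (hG : GG ≤ A.inertiaSubgroupIn ℚ) :
    GoodCrv (residue A) ((galF0 M).comp GG.subtype) (WV hq hA M) (ρV hq hA M)
      (jF Qb M - algebraMap Qb (F0 Qb M) (a : Qb))⁻¹
      (jFb A M - algebraMap (ResidueField A) (FbK A M) (a : ResidueField A))⁻¹ := by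
  obtain ⟨hfd, hndvd⟩ := finrank_level (K := Qb) ιC hM hM'
  have hQmon : (P - Polynomial.C a * Polynomial.X ^ k).Monic := by
    apply hP.sub_of_left
    refine lt_of_le_of_lt (Polynomial.degree_C_mul_X_pow_le k a) ?_
    rw [Polynomial.degree_eq_natDegree hP.ne_zero]
    exact_mod_cast hk
  have hQdeg : (P - Polynomial.C a * Polynomial.X ^ k).natDegree = P.natDegree := by
    apply Polynomial.natDegree_sub_eq_left_of_natDegree_lt
    exact lt_of_le_of_lt (Polynomial.natDegree_C_mul_X_pow_le a k) hk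
  have hQ0 : (P - Polynomial.C a * Polynomial.X ^ k).coeff 0 = P.coeff 0 := by
    rw [Polynomial.coeff_sub, Polynomial.coeff_C_mul, Polynomial.coeff_X_pow,
      if_neg (by omega), mul_zero, sub_zero]
  have hne : jqModC (ResidueField A) - HahnSeries.C (a : ResidueField A) ≠ 0 := fun h => by
    have := thD_jq_ne (a : ResidueField A)
    rw [h, map_zero] at this
    exact this rfl
  have hne' : jqModC Qb - HahnSeries.C (a : Qb) ≠ 0 := fun h => by
    have := thD_jq_ne (a : Qb)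
    rw [h, map_zero] at this
    exact this rfl
  have hcb : ((jFb A M - algebraMap (ResidueField A) (FbK A M) (a : ResidueField A) : FbK A M) :
      LaurentSeries (ResidueField A)) =
      jqModC (ResidueField A) - HahnSeries.C (a : ResidueField A) := by
    have e : ((algebraMap (ResidueField A) (FbK A M) (a : ResidueField A) : FbK A M) :
        LaurentSeries (ResidueField A)) = HahnSeries.C (a : ResidueField A) := algebraMap_laurent _ _
    rw [← e]
    rfl
  have hcu : ((jF Qb M - algebraMap Qb (F0 Qb M) (a : Qb) : F0 Qb M) : LaurentSeries Qb) =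
      jqModC Qb - HahnSeries.C (a : Qb) := by
    have e : ((algebraMap Qb (F0 Qb M) (a : Qb) : F0 Qb M) : LaurentSeries Qb) =
      HahnSeries.C (a : Qb) := algebraMap_laurent _ _
    rw [← e]
    rfl
  refine goodCrv_core hq hA hqM hp hH hS hM hfd ?_ ?_ hQmon (k := k) (by rw [hQdeg]; exact hk)
    (Or.inr (by rw [hQ0]; exact hP0)) ?_ ?_ ?_ ?_ ?_ ?_ GG hG
  · exact natCast_residue_ne hq hA (hndvd q hq hq5)
  · intro d e h
    exact uniq_level hH h hq hA hM hP hk0 hk hP0 hfd
  · refine Eq.trans ?_ (inv_evZ hH a hne')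
    rw [← hcu]
    rfl
  · refine Eq.trans ?_ (inv_evZ hH a hne)
    rw [← hcb]
    rfl
  · exact ((sep_jF (N := M) ιC).sub _).inv
  · exact ((sep_jF (N := M₁) ιC).sub _).inv
  · rw [Ne, inv_eq_zero]
    intro h0
    apply hne
    rw [← hcb, h0]
    rfl
  · have e : (((jFb A M - algebraMap (ResidueField A) (FbK A M) (a : ResidueField A))⁻¹ :
      FbK A M) : LaurentSeries (ResidueField A)) =
      (jqModC (ResidueField A) - HahnSeries.C (a : ResidueField A))⁻¹ := by
      rw [← hcb]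
      rfl
    rw [e]
    exact thD_inv_ne (thD_jq_ne _)

/-- **Good reduction of `X₀(M)`** for the parameter `(j - a)⁻¹`, residue characteristic `≥ 5`. -/
theorem goodCrv_J (hq : q.Prime) (hq5 : 5 ≤ q) (hA : A.LiesOverPrime q) (hqM : ¬ q ∣ M)
    (a : ℤ) (GG : Subgroup GQ) (hG : GG ≤ A.inertiaSubgroupIn ℚ) :
    GoodCrv (residue A) ((galF0 M).comp GG.subtype) (WV hq hA M) (ρV hq hA M)
      (jF Qb M - algebraMap Qb (F0 Qb M) (a : Qb))⁻¹
      (jFb A M - algebraMap (ResidueField A) (FbK A M) (a : ResidueField A))⁻¹ := by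
  have : Fact (Nat.Prime 2) := ⟨Nat.prime_two⟩
  have hq2 : q ≠ 2 := by omega
  have hmon : (Polynomial.X + Polynomial.C (256 : ℤ)).Monic := Polynomial.monic_X_add_C _
  refine goodCrv_J_of (M₁ := 2 * M) haut2 (dvd_mul_right 2 M) (haut2_isUnit hq hA hq2) hq hq5 hA
    (dvd_mul_left M 2) (mul_dvd_mul_right (by norm_num) M) ?_ (hmon.pow 3) (by norm_num) ?_ ?_ a
    GG hG
  · intro h
    rcases (hq.dvd_mul).mp h with h | h
    · exact hq2 ((Nat.prime_dvd_prime_iff_eq hq Nat.prime_two).mp h)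
    · exact hqM h
  · rw [hmon.natDegree_pow, Polynomial.natDegree_X_add_C]
    norm_num
  · have h5 : ((Polynomial.X + Polynomial.C (256 : ℤ)) ^ 3).coeff 0 = ((2 ^ 24 : ℕ) : ℤ) := by
      rw [Polynomial.coeff_zero_eq_eval_zero]
      simp
    rw [h5, Int.cast_natCast]
    refine natCast_residue_ne hq hA fun h => hq2 ?_
    exact (Nat.prime_dvd_prime_iff_eq hq Nat.prime_two).mp (hq.dvd_of_dvd_pow h)

end J

section T

variable {A : ValuationSubring Qb} {q : ℕ} {p : ℕ} [Fact p.Prime] {κ : ℤ} {N : ℕ} [NeZero N]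

theorem tS_mem_FbK' (H : HauptFn p κ) (hp : p ∣ N) (A : ValuationSubring Qb) :
    tS (ResidueField A) p κ ∈ FbK A N := by
  obtain ⟨h, hr⟩ := tS_mem_gA (A := A) (p := p) (κ := κ)
  rw [← hr]
  exact ρ0_mem_FbK ⟨tF H hp, h⟩

/-- the Hauptmodul on the reduction -/
def tFb (H : HauptFn p κ) (hp : p ∣ N) (A : ValuationSubring Qb) : FbK A N :=
  ⟨tS (ResidueField A) p κ, tS_mem_FbK' H hp A⟩

theorem finrank_of_surj {K L : Type*} [Field K] [Field L] [Algebra K L]
    (h : Function.Surjective (algebraMap K L)) : finrank K L = 1 := by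
  refine (finrank_eq_one_iff_of_nonzero' (1 : L) one_ne_zero).mpr fun w => ?_
  obtain ⟨c, hc⟩ := h w
  exact ⟨c, by rw [Algebra.smul_def, mul_one, hc]⟩

theorem goodCrv_T_of {H : HauptFn p κ} {S : Set ℤ} {k : ℕ} {P : Polynomial ℤ}
    (hH : HautData H S k P) (hp : p ∣ N)
    (hS : ∀ c ∈ S, ∀ c' ∈ S, c ≠ c' → IsUnit ((c - c' : ℤ) : A.comap (algebraMap (KI A) Qb)))
    (hq : q.Prime) (hA : A.LiesOverPrime q) (hqN : ¬ q ∣ N)
    (a : ℤ) (GG : Subgroup GQ) (hG : GG ≤ A.inertiaSubgroupIn ℚ) :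
    GoodCrv (residue A) ((galF0 N).comp GG.subtype) (WV hq hA N) (ρV hq hA N)
      (tF H hp - algebraMap Qb (F0 Qb N) (a : Qb))⁻¹
      (tFb H hp A - algebraMap (ResidueField A) (FbK A N) (a : ResidueField A))⁻¹ := by
  have hne : tS (ResidueField A) p κ - HahnSeries.C (a : ResidueField A) ≠ 0 := fun h => by
    have := thD_tS_ne (p := p) (κ := κ) (a : ResidueField A)
    rw [h, map_zero] at this
    exact this rfl
  have hne' : tS Qb p κ - HahnSeries.C (a : Qb) ≠ 0 := fun h => by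
    have := thD_tS_ne (p := p) (κ := κ) (a : Qb)
    rw [h, map_zero] at this
    exact this rfl
  have hcb : ((tFb H hp A - algebraMap (ResidueField A) (FbK A N) (a : ResidueField A) :
      FbK A N) : LaurentSeries (ResidueField A)) =
      tS (ResidueField A) p κ - HahnSeries.C (a : ResidueField A) := by
    have e : ((algebraMap (ResidueField A) (FbK A N) (a : ResidueField A) : FbK A N) :
        LaurentSeries (ResidueField A)) = HahnSeries.C (a : ResidueField A) :=
      algebraMap_laurent _ _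
    rw [← e]
    rfl
  have hcu : ((tF H hp - algebraMap Qb (F0 Qb N) (a : Qb) : F0 Qb N) : LaurentSeries Qb) =
      tS Qb p κ - HahnSeries.C (a : Qb) := by
    have e : ((algebraMap Qb (F0 Qb N) (a : Qb) : F0 Qb N) : LaurentSeries Qb) =
      HahnSeries.C (a : Qb) := algebraMap_laurent _ _
    rw [← e]
    rfl
  refine goodCrv_core hq hA hqN hp hH hS (dvd_refl N) ?_ ?_ ?_ (Polynomial.monic_X_sub_C a)
    (k := 0) (by rw [Polynomial.natDegree_X_sub_C]; norm_num) (Or.inl rfl) ?_ ?_ ?_ ?_ ?_ ?_ GG hG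
  · exact (finrank_level (K := Qb) ιC (dvd_refl N) (dvd_mul_left N 36)).1
  · have h1 := @finrank_of_surj _ _ _ _ (algI (F0_mono (K := Qb) (dvd_refl N)))
      (fun x => ⟨x, Subtype.ext rfl⟩)
    intro h0
    rw [h1, Nat.cast_one] at h0
    exact one_ne_zero h0
  · intro d e h V hV x hx
    exact hV x hx
  · refine Eq.trans ?_ (inv_evZT a hne')
    rw [← hcu]
    rfl
  · refine Eq.trans ?_ (inv_evZT a hne)
    rw [← hcb]
    rfl
  · exact ((sep_tF H hp).sub _).inv
  · exact ((sep_tF H hp).sub _).inv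
  · rw [Ne, inv_eq_zero]
    intro h0
    apply hne
    rw [← hcb, h0]
    rfl
  · have e : (((tFb H hp A - algebraMap (ResidueField A) (FbK A N) (a : ResidueField A))⁻¹ :
      FbK A N) : LaurentSeries (ResidueField A)) =
      (tS (ResidueField A) p κ - HahnSeries.C (a : ResidueField A))⁻¹ := by
      rw [← hcb]
      rfl
    rw [e]
    exact thD_inv_ne (thD_tS_ne _)

/-- **Good reduction of `X₀(N)`**, `N` even, for the parameter `(t - a)⁻¹`. -/
theorem goodCrv_T2 (hq : q.Prime) (hA : A.LiesOverPrime q) (hqN : ¬ q ∣ N) (hN : 2 ∣ N)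
    (a : ℤ) (GG : Subgroup GQ) (hG : GG ≤ A.inertiaSubgroupIn ℚ) :
    haveI : Fact (Nat.Prime 2) := ⟨Nat.prime_two⟩
    GoodCrv (residue A) ((galF0 N).comp GG.subtype) (WV hq hA N) (ρV hq hA N)
      (tF haupt2 hN - algebraMap Qb (F0 Qb N) (a : Qb))⁻¹
      (tFb haupt2 hN A - algebraMap (ResidueField A) (FbK A N) (a : ResidueField A))⁻¹ :=
  haveI : Fact (Nat.Prime 2) := ⟨Nat.prime_two⟩
  goodCrv_T_of haut2 hN (haut2_isUnit hq hA fun h => hqN (h ▸ hN)) hq hA hqN a GG hG

/-- **Good reduction of `X₀(N)`**, `3 ∣ N`, for the parameter `(t - a)⁻¹`. -/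
theorem goodCrv_T3 (hq : q.Prime) (hA : A.LiesOverPrime q) (hqN : ¬ q ∣ N) (hN : 3 ∣ N)
    (a : ℤ) (GG : Subgroup GQ) (hG : GG ≤ A.inertiaSubgroupIn ℚ) :
    haveI : Fact (Nat.Prime 3) := ⟨Nat.prime_three⟩
    GoodCrv (residue A) ((galF0 N).comp GG.subtype) (WV hq hA N) (ρV hq hA N)
      (tF haupt3 hN - algebraMap Qb (F0 Qb N) (a : Qb))⁻¹
      (tFb haupt3 hN A - algebraMap (ResidueField A) (FbK A N) (a : ResidueField A))⁻¹ :=
  haveI : Fact (Nat.Prime 3) := ⟨Nat.prime_three⟩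
  goodCrv_T_of haut3 hN (haut3_isUnit hq hA fun h => hqN (h ▸ hN)) hq hA hqN a GG hG

end T

end Fermat.Agent.GC
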