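import Mathlib
import Fermat.Agent.Flat.SelFlat

/-!
# Flatness of the extension attached to a pair of rational points (abstract part)
-/

set_option autoImplicit false
set_option linter.unusedSectionVars false
set_option linter.style.haveILetI false

noncomputable section

namespace Fermat.Agent.GC

open AlgebraicCurve IsDedekindDomain IntermediateField WithZero Module Fermat.Agent.FunField
open Fermat.Agent.Flat

universe u

section Res

variable {ι ι' : Type} [Fintype ι] [DecidableEq ι] [Fintype ι'] [DecidableEq ι']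
  {Ω F : Type u} [Field Ω] [Field F] [Algebra Ω F]
  {m : ℕ} {x : ι → Place Ω F} {g C : ℤ} (e : ι' → ι)

theorem adm_comp {f : F} {η : ι → Ω} (h : Adm m x f η) : Adm m (x ∘ e) f (η ∘ e) :=
  ⟨h.ne, h.dvd, fun i => h.ord (e i), fun i => h.pow (e i)⟩

theorem eqv_comp {f f' : F} {η η' : ι → Ω} (h : Eqv m x f η f' η') :
    Eqv m (x ∘ e) f (η ∘ e) f' (η' ∘ e) := by
  obtain ⟨u, hu, hux, h1, h2⟩ := h
  exact ⟨u, hu, fun i => hux (e i), h1, by rw [h2]; rfl⟩

/-- forget points -/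
def resZ (hC : Crv Ω F g C) (hm : m ≠ 0) : Zg m x hC hm →* Zg m (x ∘ e) hC hm where
  toFun p := ⟨(p.1.1, fun i => p.1.2 (e i)), adm_comp e p.2⟩
  map_one' := rfl
  map_mul' _ _ := rfl

/-- forget points -/
def resV (hC : Crv Ω F g C) (hm : m ≠ 0) :
    Additive (Zg m x hC hm ⧸ Bg m x hC hm) →+
      Additive (Zg m (x ∘ e) hC hm ⧸ Bg m (x ∘ e) hC hm) :=
  MonoidHom.toAdditive (QuotientGroup.map _ _ (resZ e hC hm) fun _ hp => eqv_comp e hp)

variable {G : Type*} [Group G] [MulSemiringAction G Ω] {γ : G →* SemilinearAut Ω F}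

theorem resV_smul (hC : Crv Ω F g C) (hm : m ≠ 0)
    (hbase : ∀ (σ : G) (a : Ω), SemilinearAut.baseAut (γ σ) a = σ • a)
    (hfix : ∀ (σ : G) i, γ σ • x i = x i) (hfix' : ∀ (σ : G) i, γ σ • (x ∘ e) i = (x ∘ e) i)
    (σ : G) (v : Additive (Zg m x hC hm ⧸ Bg m x hC hm)) :
    resV e hC hm ((actV γ hC hm hbase hfix).smul σ v) =
      (actV γ hC hm hbase hfix').smul σ (resV e hC hm v) := by
  obtain ⟨p, hp⟩ := QuotientGroup.mk_surjective v.toMul
  have : v = Additive.ofMul (QuotientGroup.mk p) := by rw [hp]; rfl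
  subst this
  rfl

end Res

section Pt

variable {Ω κ F Fb : Type*} [Field Ω] [Field κ] [Field F] [Field Fb] [Algebra Ω F] [Algebra κ Fb]
  {A : ValuationSubring Ω} {G : Type*} [Group G] [MulSemiringAction G Ω]
  [IsAlgClosed Ω] [IsAlgClosed κ] {r : A →+* κ} {γ : G →* SemilinearAut Ω F}
  {W : ValuationSubring F} {ρ : W →+* Fb} {t : F} {tb : Fb} {g C : ℤ}

/-- add a point -/
def oc {α ι : Type*} (a : α) (x : ι → α) : Option ι → α
  | none => a
  | some i => x i

theorem pts_comp {ι ι' : Type*} {x : ι → Place Ω F} {xb : ι → Place κ Fb}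
    (hP : Pts r γ ρ t tb x xb) (e : ι' → ι) (he : Function.Injective e) :
    Pts r γ ρ t tb (x ∘ e) (xb ∘ e) :=
  ⟨hP.inj.comp he, hP.injb.comp he, fun _ => hP.ord _, fun _ => hP.ordb _, fun _ => hP.red _,
    fun g _ => hP.fix g _, fun _ => hP.cA _⟩

theorem pts_oc (hG : GoodCrv r γ W ρ t tb) {ι : Type*} {x : ι → Place Ω F} {xb : ι → Place κ Fb}
    (hP : Pts r γ ρ t tb x xb) {a : Place Ω F} {ab : Place κ Fb} {c : A}
    (hc : 0 < a.ord (t - algebraMap Ω F c)) (hab : 0 < ab.ord (tb - algebraMap κ Fb (r c)))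
    (hred : RedTo r ρ t a ab) (hfix : ∀ g : G, γ g • a = a) (hne : ∀ i, xb i ≠ ab) :
    Pts r γ ρ t tb (oc a x) (oc ab xb) := by
  have h1 : 0 ≤ a.ord t := ord_t_nonneg hc
  have h1b : 0 ≤ ab.ord tb := ord_t_nonneg hab
  have hne' : ∀ i, x i ≠ a := by
    intro i h
    apply hne i
    have h2 := hP.red i
    rw [h] at h2
    exact hG.red_unique h2 hred (hP.ordb i) h1b
  refine ⟨?_, ?_, ?_, ?_, ?_, ?_, ?_⟩
  · rintro (_ | i) (_ | j) h
    · rfl
    · exact absurd h.symm (hne' j)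
    · exact absurd h (hne' i)
    · exact congrArg some (hP.inj h)
  · rintro (_ | i) (_ | j) h
    · rfl
    · exact absurd h.symm (hne j)
    · exact absurd h (hne i)
    · exact congrArg some (hP.injb h)
  · rintro (_ | i)
    · exact h1
    · exact hP.ord i
  · rintro (_ | i)
    · exact h1b
    · exact hP.ordb i
  · rintro (_ | i)
    · exact hred
    · exact hP.red i
  · rintro σ (_ | i)
    · exact hfix σ
    · exact hP.fix σ i
  · rintro (_ | i)
    · exact ⟨c, hc⟩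
    · exact hP.cA i

/-- Many points, away from two given ones. -/
theorem exists_pts2 (hG : GoodCrv r γ W ρ t tb) (hI : Inert G r) (hC : Crv Ω F g C)
    {gb Cb : ℤ} (hCb : Crv κ Fb gb Cb) (htW : t ∈ W) (htb : ρ ⟨t, htW⟩ = tb)
    {a b : Place Ω F} {ca cb : A} (ha : 0 < a.ord (t - algebraMap Ω F ca))
    (hb : 0 < b.ord (t - algebraMap Ω F cb)) (hfa : ∀ g : G, γ g • a = a)
    (hfb : ∀ g : G, γ g • b = b) (N : ℕ) :
    ∃ (x : Fin N → Place Ω F) (xb : Fin N → Place κ Fb) (ab bb : Place κ Fb),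
      Pts r γ ρ t tb x xb ∧ Pts r γ ρ t tb (oc a x) (oc ab xb) ∧
        Pts r γ ρ t tb (oc b x) (oc bb xb) := by
  classical
  obtain ⟨ab, hab, hra⟩ := hG.exists_red htW htb ha
  obtain ⟨bb, hbb, hrb⟩ := hG.exists_red htW htb hb
  obtain ⟨x, xb, hP⟩ := hG.exists_pts hI hC hCb htW htb (N + 2)
  let S : Finset (Fin (N + 2)) := Finset.univ.filter fun i => xb i ≠ ab ∧ xb i ≠ bb
  have hS : N ≤ S.card := by
    have h1 : ∀ y : Place κ Fb, (Finset.univ.filter fun i => xb i = y).card ≤ 1 := by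
      intro y
      rw [Finset.card_le_one]
      intro i hi j hj
      rw [Finset.mem_filter] at hi hj
      exact hP.injb (hi.2.trans hj.2.symm)
    have h2 : Finset.univ ⊆ S ∪ ((Finset.univ.filter fun i => xb i = ab) ∪
        (Finset.univ.filter fun i => xb i = bb)) := by
      intro i _
      simp only [S, Finset.mem_union, Finset.mem_filter, Finset.mem_univ, true_and]
      tauto
    have h3 := Finset.card_le_card h2
    have h4 := Finset.card_union_le S ((Finset.univ.filter fun i => xb i = ab) ∪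
        (Finset.univ.filter fun i => xb i = bb))
    have h5 := Finset.card_union_le (Finset.univ.filter fun i => xb i = ab)
        (Finset.univ.filter fun i => xb i = bb)
    have h6 := h1 ab
    have h7 := h1 bb
    rw [Finset.card_univ, Fintype.card_fin] at h3
    omega
  obtain ⟨e, he⟩ : ∃ e : Fin N → Fin (N + 2), Function.Injective e ∧ ∀ i, e i ∈ S := by
    refine ⟨fun i => S.orderEmbOfFin rfl (Fin.castLE hS i), ?_, fun i =>
      Finset.orderEmbOfFin_mem _ _ _⟩
    intro i j hij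
    have := (S.orderEmbOfFin rfl).injective hij
    exact Fin.castLE_injective hS this
  have he2 : ∀ i, xb (e i) ≠ ab ∧ xb (e i) ≠ bb := fun i => by
    have := he.2 i
    simpa [S] using this
  have hP' := pts_comp hP e he.1
  exact ⟨x ∘ e, xb ∘ e, ab, bb, hP', pts_oc hG hP' ha hab hra hfa fun i => (he2 i).1,
    pts_oc hG hP' hb hbb hrb hfb fun i => (he2 i).2⟩

end Pt

section Root

variable {Ω F : Type*} [Field Ω] [Field F] [Algebra Ω F] [IsAlgClosed Ω] [CharZero Ω]

/-- A root of unity in a function field is constant. -/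
theorem exists_of_pow_eq_one {m : ℕ} (hm : m ≠ 0) {u : F} (h : u ^ m = 1) :
    ∃ c : Ω, algebraMap Ω F c = u := by
  haveI : NeZero m := ⟨hm⟩
  obtain ⟨ζ, hζ⟩ := HasEnoughRootsOfUnity.exists_primitiveRoot Ω m
  have h2 := hζ.map_of_injective (f := algebraMap Ω F) (algebraMap Ω F).injective
  obtain ⟨i, -, hi⟩ := h2.eq_pow_of_pow_eq_one h
  exact ⟨ζ ^ i, by rw [map_pow, hi]⟩

theorem eq_of_pow_eq {v : Place Ω F} (hr : Rational v) {m : ℕ} (hm : m ≠ 0) {u w : F}
    (hw : w ≠ 0) (hwo : v.ord w = 0) (h : u ^ m = w ^ m) (he : evp v u = evp v w) : u = w := by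
  obtain ⟨c, hc⟩ := exists_of_pow_eq_one (Ω := Ω) hm (u := u / w) (by
    rw [div_pow, h, div_self (pow_ne_zero m hw)])
  have h1 : u = algebraMap Ω F c * w := by
    rw [hc, div_mul_cancel₀ u hw]
  have hwm := mem_of_ord_nonneg v hwo.ge
  have h2 : evp v w ≠ 0 := (evp_ne_zero_iff hr hwm).mpr ⟨hw, hwo⟩
  rw [h1, evp_mul hr (v.algebraMap_mem' c) hwm, evp_algebraMap] at he
  have h3 : c = 1 := by
    apply mul_right_cancel₀ h2
    rw [he, one_mul]
  rw [h1, h3, map_one, one_mul]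

end Root

section Flat

variable {Ω F : Type u} {κ Fb : Type*} [Field Ω] [Field κ] [Field F] [Field Fb] [Algebra Ω F]
  [Algebra κ Fb]
  {A : ValuationSubring Ω} {G : Type*} [Group G] [MulSemiringAction G Ω]
  {r : A →+* κ} {γ : G →* SemilinearAut Ω F}
  {W : ValuationSubring F} {ρ : W →+* Fb} {t : F} {tb : Fb}
  {m : ℕ} [IsAlgClosed Ω] [CharZero Ω] [IsAlgClosed κ]

/-- Flatness for many points with distinct reductions. -/
theorem flat_pts (hG : GoodCrv r γ W ρ t tb) (hI : Inert G r) {g C : ℤ} (hC : Crv Ω F g C)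
    (hCb : Crv κ Fb g C) (hC0 : 0 ≤ C) (hm : m ≠ 0) {S : Set F} (hS : S.Finite)
    (hSel : ∀ f : F, f ≠ 0 → (∀ v : Place Ω F, (m : ℤ) ∣ v.ord f) →
      ∃ f' ∈ S, ∃ u : F, u ≠ 0 ∧ f = f' * u ^ m) {ι : Type} [Fintype ι] [DecidableEq ι]
    {x : ι → Place Ω F} {xb : ι → Place κ Fb} (hP : Pts r γ ρ t tb x xb) {s : ℕ}
    (hs : C + 1 ≤ s * dg (pol (K := Ω) t))
    (hcard : 4 * s * dg (pol (K := Ω) t) < Fintype.card ι) :
    letI := actV (m := m) γ hC hm hG.base hP.fix
    IsFlat (fixA G A) G (Additive (Zg m x hC hm ⧸ Bg m x hC hm)) Ω := by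
  letI := actV (m := m) γ hC hm hG.base hP.fix
  have hfin := finite_cls (x := x) hC hm hS hSel
  have hfin' : Finite (Additive (Zg m x hC hm ⧸ Bg m x hC hm)) := hfin
  have hcd := classData_out (x := x) hC hm hG.base hP.fix
  obtain ⟨Wv, Wb, hcrit⟩ := ClassData.critData hG hI hC hCb hP hm hcd hs hC0 hcard
  exact ⟨_, hcrit.isHopfOrder hI⟩

/-- **Flatness with two prescribed points**, possibly with the same reduction. -/
theorem exists_flat_pair (hG : GoodCrv r γ W ρ t tb) (hI : Inert G r) (htW : t ∈ W)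
    (htb : ρ ⟨t, htW⟩ = tb) (hm : m ≠ 0) {S : Set F} (hS : S.Finite)
    (hSel : ∀ f : F, f ≠ 0 → (∀ v : Place Ω F, (m : ℤ) ∣ v.ord f) →
      ∃ f' ∈ S, ∃ u : F, u ≠ 0 ∧ f = f' * u ^ m)
    {a b : Place Ω F} {ca cb : A} (ha : 0 < a.ord (t - algebraMap Ω F ca))
    (hb : 0 < b.ord (t - algebraMap Ω F cb)) (hfa : ∀ g : G, γ g • a = a)
    (hfb : ∀ g : G, γ g • b = b) :
    ∃ (g C : ℤ) (hC : Crv Ω F g C) (n : ℕ) (x : Fin n → Place Ω F)
      (hfix : ∀ (σ : G) i, γ σ • (oc a (oc b x)) i = (oc a (oc b x)) i),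
      letI := actV (m := m) γ hC hm hG.base hfix
      Finite (Additive (Zg m (oc a (oc b x)) hC hm ⧸ Bg m (oc a (oc b x)) hC hm)) ∧
      IsFlat (fixA G A) G (Additive (Zg m (oc a (oc b x)) hC hm ⧸ Bg m (oc a (oc b x)) hC hm)) Ω := by
  classical
  obtain ⟨g, C₁, hC₁⟩ := hG.sep.exists_crv
  obtain ⟨gb, C₂, hC₂⟩ := hG.sepb.exists_crv
  obtain ⟨hdeg, hgg, hpos⟩ := hG.numerics hC₁ hC₂
  let C : ℤ := max 0 (max C₁ C₂)
  have hC : Crv Ω F g C := hC₁.mono ((le_max_left _ _).trans (le_max_right _ _))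
  have hCb : Crv κ Fb g C := by
    rw [← hgg]
    exact hC₂.mono ((le_max_right _ _).trans (le_max_right _ _))
  have hC0 : 0 ≤ C := le_max_left _ _
  let s : ℕ := (C + 1).toNat
  have hs' : C + 1 ≤ s := Int.self_le_toNat _
  have hs : C + 1 ≤ s * dg (pol (K := Ω) t) := by
    have : (0 : ℤ) ≤ s := Int.natCast_nonneg _
    nlinarith
  let N : ℕ := (4 * s * dg (pol (K := Ω) t) + 1).toNat
  have hN : 4 * s * dg (pol (K := Ω) t) + 1 ≤ N := Int.self_le_toNat _
  have hN1 : 0 < N := by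
    have h0 : (0 : ℤ) ≤ s := Int.natCast_nonneg _
    have h1 : (0 : ℤ) ≤ 4 * s * dg (pol (K := Ω) t) := by positivity
    omega
  obtain ⟨x, xb, ab, bb, hP, hPa, hPb⟩ := exists_pts2 hG hI hC hCb htW htb ha hb hfa hfb N
  have hfix : ∀ (σ : G) i, γ σ • (oc a (oc b x)) i = (oc a (oc b x)) i := by
    rintro σ (_ | _ | i)
    · exact hfa σ
    · exact hfb σ
    · exact hP.fix σ i
  refine ⟨g, C, hC, N, x, hfix, finite_cls (x := oc a (oc b x)) hC hm hS hSel, ?_⟩
  let e1 : Option (Fin N) → Option (Option (Fin N)) := Option.map some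
  let e2 : Option (Fin N) → Option (Option (Fin N)) := some
  have he1 : (oc a (oc b x)) ∘ e1 = oc a x := by
    funext i
    rcases i with _ | i <;> rfl
  have hPa' : Pts r γ ρ t tb ((oc a (oc b x)) ∘ e1) (oc ab xb) := by rw [he1]; exact hPa
  have hPb' : Pts r γ ρ t tb ((oc a (oc b x)) ∘ e2) (oc bb xb) := hPb
  have h1 := flat_pts hG hI hC hCb hC0 hm hS hSel hPa' hs (by
    rw [Fintype.card_option, Fintype.card_fin]; push_cast; omega)
  have h2 := flat_pts hG hI hC hCb hC0 hm hS hSel hPb' hs (by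
    rw [Fintype.card_option, Fintype.card_fin]; push_cast; omega)
  letI i0 := actV (m := m) γ hC hm hG.base hfix
  letI i1 := actV (m := m) γ hC hm hG.base hPa'.fix
  letI i2 := actV (m := m) γ hC hm hG.base hPb'.fix
  refine (h1.prod h2).of_injective ((resV e1 hC hm).prod (resV e2 hC hm)) ?_ ?_
  · rw [injective_iff_map_eq_zero]
    intro v hv
    obtain ⟨p, hp⟩ := QuotientGroup.mk_surjective v.toMul
    have hv' : v = Additive.ofMul (QuotientGroup.mk p) := by rw [hp]; rfl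
    subst hv'
    have hv1 : (QuotientGroup.mk (resZ e1 hC hm p) : Zg m ((oc a (oc b x)) ∘ e1) hC hm ⧸
        Bg m ((oc a (oc b x)) ∘ e1) hC hm) = 1 := congrArg Prod.fst hv
    have hv2 : (QuotientGroup.mk (resZ e2 hC hm p) : Zg m ((oc a (oc b x)) ∘ e2) hC hm ⧸
        Bg m ((oc a (oc b x)) ∘ e2) hC hm) = 1 := congrArg Prod.snd hv
    rw [QuotientGroup.eq_one_iff] at hv1 hv2
    obtain ⟨u, hu, hux, hu1, hu2⟩ := hv1
    obtain ⟨w, hw, hwx, hw1, hw2⟩ := hv2
    have huw : u = w := by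
      refine eq_of_pow_eq (v := x ⟨0, hN1⟩) (hC.rat _) hm hw (hwx (some ⟨0, hN1⟩)) ?_ ?_
      · have h3 : (p.1.1 : F) = 1 * u ^ m := hu1
        have h4 : (p.1.1 : F) = 1 * w ^ m := hw1
        rw [one_mul] at h3 h4
        rw [← h3, ← h4]
      · have h3 := congrFun hu2 (some ⟨0, hN1⟩)
        have h4 := congrFun hw2 (some ⟨0, hN1⟩)
        rw [Pi.mul_apply, Pi.one_apply, one_mul] at h3 h4
        exact h3.symm.trans h4
    change Additive.ofMul (QuotientGroup.mk p) = Additive.ofMul 1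
    congr 1
    rw [QuotientGroup.eq_one_iff]
    refine ⟨u, hu, ?_, hu1, ?_⟩
    · rintro (_ | i)
      · exact hux none
      · rw [huw]; exact hwx i
    · funext i
      rcases i with _ | i
      · exact congrFun hu2 none
      · rw [huw]
        exact congrFun hw2 i
  · intro σ v
    exact Prod.ext (resV_smul e1 hC hm hG.base hfix hPa'.fix σ v)
      (resV_smul e2 hC hm hG.base hfix hPb'.fix σ v)

end Flat

end Fermat.Agent.GC
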