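import Mathlib
import Fermat.Agent.GC.FlatPair

/-!
# Flatness of the extension attached to a pair of rational points (abstract part, continued)
-/

set_option autoImplicit false
set_option linter.unusedSectionVars false
set_option linter.style.haveILetI false

noncomputable section

namespace Fermat.Agent.GC

open AlgebraicCurve IsDedekindDomain IntermediateField WithZero Module Fermat.Agent.FunField
open Fermat.Agent.Flat

universe u

section Move

variable {ι : Type} [Fintype ι] [DecidableEq ι] {Ω F : Type u} [Field Ω] [Field F] [Algebra Ω F]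
  {m : ℕ} {g C : ℤ} [IsAlgClosed Ω] [CharZero Ω] {t : F}

/-- moving a divisor away from finitely many points -/
theorem exists_move (ht : Sep Ω t) (hC : Crv Ω F g C) (x : ι → Place Ω F) {D : Divisor Ω F}
    (hD : dg D = 0) : ∃ u : F, u ≠ 0 ∧ ∀ i, (x i).ord u = - D (x i) := by
  classical
  have hne := ht.nonempty
  have hInf : Infinite Ω := inferInstance
  have hpos : 0 < dg (pol (K := Ω) t) := by
    have := ht.fd
    rw [ht.dg_pol]; exact_mod_cast finrank_pos
  let n : ℕ := (C + 1).toNat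
  have hn : C + 1 ≤ n := Int.self_le_toNat _
  have hn0 : (0 : ℤ) ≤ n := Int.natCast_nonneg _
  obtain ⟨v₀⟩ := hne
  obtain ⟨a, -, ha0, ha⟩ := hC.exists_section (D := D + n • pol (K := Ω) t)
    (by rw [map_add, hD, map_nsmul, nsmul_eq_mul]; nlinarith)
    (insert v₀ (Finset.univ.image x)) (Finset.insert_nonempty _ _)
  obtain ⟨b, -, hb0, hb⟩ := hC.exists_section (D := n • pol (K := Ω) t)
    (by rw [map_nsmul, nsmul_eq_mul]; nlinarith)
    (insert v₀ (Finset.univ.image x)) (Finset.insert_nonempty _ _)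
  refine ⟨a / b, div_ne_zero ha0 hb0, fun i => ?_⟩
  have hi : x i ∈ insert v₀ (Finset.univ.image x) :=
    Finset.mem_insert_of_mem (Finset.mem_image_of_mem _ (Finset.mem_univ i))
  rw [div_eq_mul_inv a b, (x i).ord_mul ha0 (inv_ne_zero hb0),
    (x i).ord_inv, ha _ hi, hb _ hi, Finsupp.add_apply]
  ring

/-- a function with divisor divisible by `m` can be made regular and nonvanishing at given
points -/
theorem exists_adm_move (ht : Sep Ω t) (hC : Crv Ω F g C) (hm : m ≠ 0) (x : ι → Place Ω F)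
    {f : F} (hf : f ≠ 0) (hdvd : ∀ v : Place Ω F, (m : ℤ) ∣ v.ord f) :
    ∃ u : F, u ≠ 0 ∧ ∀ i, (x i).ord (f * u ^ m) = 0 ∧ ((x i).ord f = 0 → (x i).ord u = 0) := by
  have h1 : m • dm (K := Ω) m f = dv f := by
    ext v
    rw [Finsupp.smul_apply, nsmul_eq_mul, dm_apply hC, dv_apply (hC.fin _)]
    exact Int.mul_ediv_cancel' (hdvd v)
  have hD : dg (dm (K := Ω) m f) = 0 := by
    have h2 := congrArg dg h1
    rw [map_nsmul, hC.deg0 _ hf, nsmul_eq_mul] at h2
    rcases mul_eq_zero.mp h2 with h3 | h3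
    · exact absurd (by exact_mod_cast h3) hm
    · exact h3
  obtain ⟨u, hu, hux⟩ := exists_move ht hC x hD
  refine ⟨u, hu, fun i => ⟨?_, fun h0 => ?_⟩⟩
  · rw [(x i).ord_mul hf (pow_ne_zero _ hu), ord_pow, hux, dm_apply hC]
    have := Int.mul_ediv_cancel' (hdvd (x i))
    linarith
  · rw [hux, dm_apply hC, h0, Int.zero_ediv, neg_zero]

variable {ι' : Type} [Fintype ι'] [DecidableEq ι'] {x : ι → Place Ω F}

/-- Forgetting points is surjective. -/
theorem resV_surj (ht : Sep Ω t) (hC : Crv Ω F g C) (hm : m ≠ 0) {e : ι' → ι}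
    (he : Function.Injective e) :
    Function.Surjective (resV (m := m) (x := x) e hC hm) := by
  classical
  intro v
  obtain ⟨p, hp⟩ := QuotientGroup.mk_surjective v.toMul
  have hv' : v = Additive.ofMul (QuotientGroup.mk p) := by rw [hp]; rfl
  subst hv'
  obtain ⟨u, hu, hux⟩ := exists_adm_move ht hC hm x p.1.1.ne_zero p.2.dvd
  have hpo : ∀ j, (x (e j)).ord (p.1.1 : F) = 0 := fun j => p.2.ord j
  have huo : ∀ j, (x (e j)).ord u = 0 := fun j => (hux (e j)).2 (hpo j)
  choose η₀ hη₀ using fun i => IsAlgClosed.exists_pow_nat_eq (evp (x i) ((p.1.1 : F) * u ^ m))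
    (Nat.pos_of_ne_zero hm)
  let η : ι → Ω := fun i => if h : ∃ j, e j = i then (p.1.2 h.choose : Ω) * evp (x i) u else η₀ i
  have hηe : ∀ j, η (e j) = (p.1.2 j : Ω) * evp (x (e j)) u := by
    intro j
    have h : ∃ j', e j' = e j := ⟨j, rfl⟩
    simp only [η, dif_pos h]
    rw [he h.choose_spec]
  have hadm : Adm m x ((p.1.1 : F) * u ^ m) η := by
    refine ⟨mul_ne_zero p.1.1.ne_zero (pow_ne_zero _ hu), fun v => ?_, fun i => (hux i).1,
      fun i => ?_⟩
    · rw [v.ord_mul p.1.1.ne_zero (pow_ne_zero _ hu), ord_pow]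
      exact dvd_add (p.2.dvd v) (dvd_mul_right _ _)
    · by_cases h : ∃ j, e j = i
      · obtain ⟨j, rfl⟩ := h
        rw [hηe, mul_pow, evp_mul (hC.rat _) (mem_of_ord_nonneg _ (hpo j).ge)
          (pow_mem (mem_of_ord_nonneg _ (huo j).ge) m),
          evp_pow (hC.rat _) (mem_of_ord_nonneg _ (huo j).ge)]
        congr 1
        exact p.2.pow j
      · simp only [η, dif_neg h]
        exact (hη₀ i).symm
  have hη0 := hadm.eta_ne hC hm
  let P : Zg m x hC hm := ⟨(Units.mk0 _ hadm.ne, fun i => Units.mk0 (η i) (hη0 i)), hadm⟩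
  refine ⟨Additive.ofMul (QuotientGroup.mk P), ?_⟩
  change Additive.ofMul (QuotientGroup.mk (resZ e hC hm P)) = Additive.ofMul (QuotientGroup.mk p)
  congr 1
  rw [mk_eq_iff]
  refine ⟨u, hu, huo, rfl, ?_⟩
  funext j
  exact hηe j

end Move

section Flat

variable {Ω F : Type u} {κ Fb : Type*} [Field Ω] [Field κ] [Field F] [Field Fb] [Algebra Ω F]
  [Algebra κ Fb]
  {A : ValuationSubring Ω} {G : Type*} [Group G] [MulSemiringAction G Ω]
  {r : A →+* κ} {γ : G →* SemilinearAut Ω F}
  {W : ValuationSubring F} {ρ : W →+* Fb} {t : F} {tb : Fb}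
  {m : ℕ} [IsAlgClosed Ω] [CharZero Ω] [IsAlgClosed κ]

/-- **Flatness for two points**, possibly with the same reduction. -/
theorem flat_two (hG : GoodCrv r γ W ρ t tb) (hI : Inert G r) (htW : t ∈ W)
    (htb : ρ ⟨t, htW⟩ = tb) (hm : m ≠ 0) {S : Set F} (hS : S.Finite)
    (hSel : ∀ f : F, f ≠ 0 → (∀ v : Place Ω F, (m : ℤ) ∣ v.ord f) →
      ∃ f' ∈ S, ∃ u : F, u ≠ 0 ∧ f = f' * u ^ m)
    [IsDomain (fixA G A)] [IsPrincipalIdealRing (fixA G A)] (hD : Desc (fixA G A) G Ω)
    {a b : Place Ω F} {ca cb : A} (ha : 0 < a.ord (t - algebraMap Ω F ca))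
    (hb : 0 < b.ord (t - algebraMap Ω F cb)) (hfa : ∀ g : G, γ g • a = a)
    (hfb : ∀ g : G, γ g • b = b) :
    ∃ (g C : ℤ) (hC : Crv Ω F g C)
      (hfix : ∀ (σ : G) i, γ σ • (![a, b] : Fin 2 → Place Ω F) i = (![a, b] : Fin 2 → Place Ω F) i),
      letI := actV (m := m) γ hC hm hG.base hfix
      Finite (Additive (Zg m ![a, b] hC hm ⧸ Bg m ![a, b] hC hm)) ∧
      IsFlat (fixA G A) G (Additive (Zg m ![a, b] hC hm ⧸ Bg m ![a, b] hC hm)) Ω := by
  obtain ⟨g, C, hC, n, x, hfix, hfin, hV⟩ :=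
    exists_flat_pair hG hI htW htb hm hS hSel ha hb hfa hfb
  let e : Fin 2 → Option (Option (Fin n)) := ![none, some none]
  have he : Function.Injective e := by
    intro i j hij
    fin_cases i <;> fin_cases j
    · rfl
    · exact absurd hij (by simp [e])
    · exact absurd hij (by simp [e])
    · rfl
  have hxe : (oc a (oc b x)) ∘ e = ![a, b] := by
    funext i
    fin_cases i <;> rfl
  have hfix' : ∀ (σ : G) i, γ σ • (![a, b] : Fin 2 → Place Ω F) i =
      (![a, b] : Fin 2 → Place Ω F) i := by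
    intro σ i
    fin_cases i
    · exact hfa σ
    · exact hfb σ
  refine ⟨g, C, hC, hfix', ?_⟩
  have key : ∀ (y : Fin 2 → Place Ω F) (hfy : ∀ (σ : G) i, γ σ • y i = y i),
      (oc a (oc b x)) ∘ e = y →
      letI := actV (m := m) γ hC hm hG.base hfy
      Finite (Additive (Zg m y hC hm ⧸ Bg m y hC hm)) ∧
      IsFlat (fixA G A) G (Additive (Zg m y hC hm ⧸ Bg m y hC hm)) Ω := by
    rintro _ hfy rfl
    letI i0 := actV (m := m) γ hC hm hG.base hfix
    letI i1 := actV (m := m) γ hC hm hG.base hfy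
    have hs := resV_surj (m := m) (x := oc a (oc b x)) hG.sep hC hm he
    exact ⟨Finite.of_surjective _ hs, hV.of_surjective hD (resV e hC hm) hs fun σ v =>
      resV_smul e hC hm hG.base hfix hfy σ v⟩
  exact key _ hfix' hxe

end Flat

end Fermat.Agent.GC
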