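import Mathlib
import Fermat.Agent.Conn.Zeta
import Fermat.Agent.Flat.Unram1

/-!
# Flat groups of order prime to the residue characteristic are unramified
-/

set_option autoImplicit false
set_option linter.unusedSectionVars false

noncomputable section

namespace Fermat.Agent.GC

open Module Fermat.Agent.Flat Fermat.Agent.Conn

variable {G Ω : Type*} [Field Ω] [Group G] [MulSemiringAction G Ω] {A : ValuationSubring Ω}
variable {V : Type*} [AddCommGroup V] [DistribMulAction G V]

theorem eq_zero_of_red {H : Subalgebra (fixA G A) (V → Ω)}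
    (hH : IsHopfOrder (fixA G A) G H) (hval : ∀ f ∈ H, ∀ w, f w ∈ A) {m : ℕ}
    (hm : A.valuation (m : Ω) = 1) {w : V} (hw : m • w = 0) (hred : w ∈ red A H) : w = 0 := by
  by_contra hv
  obtain ⟨f₀, hf₀, h00, hc⟩ := exists_min' hH hval w
  have hc0 := value_ne_zero hH hv hc
  have hc1 : A.valuation (f₀ w) < 1 := by
    have := (mem_red_iff hH hval).mp hred f₀ hf₀
    rwa [h00, sub_zero] at this
  obtain ⟨β, hβ⟩ := newton hH hval hf₀ h00 hc
  have h1 := hβ m
  rw [hw, h00] at h1
  set c := f₀ w with hcdef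
  have hvc : A.valuation c ≠ 0 := (Valuation.ne_zero_iff _).mpr hc0
  have h3 : A.valuation (∑ j ∈ Finset.Ico 2 (m + 1), (m.choose j : Ω) * (c ^ j * β j)) <
      A.valuation c := by
    refine Valuation.map_sum_lt _ hvc fun j hj => ?_
    rw [Finset.mem_Ico] at hj
    have hβ1 : A.valuation ((β j : A) : Ω) ≤ 1 := (A.valuation_le_one_iff _).mpr (β j).2
    rw [map_mul, map_mul, map_pow]
    have h4 : A.valuation (m.choose j : Ω) ≤ 1 := valuation_natCast_le A _
    have h5 : A.valuation c ^ j < A.valuation c := pow_lt_self_of_lt_one₀ (zero_lt_iff.mpr hvc)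
      hc1 (by omega)
    calc _ ≤ A.valuation c ^ j * A.valuation ((β j : A) : Ω) := mul_le_of_le_one_left' h4
      _ ≤ A.valuation c ^ j := mul_le_of_le_one_right' hβ1
      _ < _ := h5
  have h4 : (m : Ω) * c = -∑ j ∈ Finset.Ico 2 (m + 1), (m.choose j : Ω) * (c ^ j * β j) :=
    eq_neg_of_add_eq_zero_left h1.symm
  have h5 := congrArg A.valuation h4
  rw [Valuation.map_neg, map_mul, hm, one_mul] at h5
  rw [← h5] at h3
  exact lt_irrefl _ h3

/-- Hopf orders consist of functions with integral values. -/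
theorem value_mem' {H : Subalgebra (fixA G A) (V → Ω)}
    (hH : IsHopfOrder (fixA G A) G H) {f : V → Ω} (hf : f ∈ H) (v : V) : f v ∈ A := by
  have h1 : IsIntegral (fixA G A) f := IsIntegral.of_mem_of_fg H hH.fg f hf
  have h2 : IsIntegral (fixA G A) (f v) :=
    h1.map (Pi.evalAlgHom (fixA G A) (fun _ : V => Ω) v)
  have h3 : IsIntegral A (f v) := by
    obtain ⟨p, hp, hpv⟩ := h2
    let φ : fixA G A →+* A := (fixA G A).subtype.codRestrict A.toSubring fun a => a.2.1
    refine ⟨p.map φ, hp.map φ, ?_⟩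
    rw [Polynomial.eval₂_map]
    exact hpv
  obtain ⟨w, hw⟩ := IsIntegrallyClosed.isIntegral_iff.mp h3
  rw [← hw]
  exact w.2

/-- A flat group whose exponent is prime to the residue characteristic is unramified. -/
theorem smul_eq_of_flat (hV : IsFlat (fixA G A) G V Ω)
    (hres : ∀ (g : G), ∀ a ∈ A, A.valuation (g • a - a) < 1) {m : ℕ}
    (hm : A.valuation (m : Ω) = 1) (hmV : ∀ v : V, m • v = 0) (g : G) (v : V) : g • v = v := by
  obtain ⟨H, hH⟩ := hV
  have hval : ∀ f ∈ H, ∀ w, f w ∈ A := fun f hf w => value_mem' hH hf w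
  rw [← sub_eq_zero]
  exact eq_zero_of_red hH hval hm (hmV _) (smul_sub_mem_red hH hval hres g v)

end Fermat.Agent.GC
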