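import Mathlib
import Fermat.Agent.GC.Conc2
import Fermat.Agent.GC.FlatPair2
import Fermat.Agent.GC.Unr
import Fermat.Agent.Mzr.PairG

/-!
# Flatness of the extension attached to a pair of rational points of `X₀(M)`
-/

set_option autoImplicit false
set_option linter.unusedSectionVars false
set_option linter.style.haveILetI false
set_option synthInstance.maxHeartbeats 400000

noncomputable section

namespace Fermat.Agent.GC

open AlgebraicCurve IsDedekindDomain IntermediateField WithZero Module Fermat.Agent.FunField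
open Fermat.Agent.Flat Fermat.Agent.MZ Fermat.Agent.Lf Fermat.Agent.MP Fermat.Agent.Conn
open Fermat.Agent.LG Fermat.Agent.ModFun Fermat.Agent.Geo Fermat.Agent.Mzr
open Fermat.Agent.ESCore (HauptFn haupt2 haupt3 ιC)
open IsLocalRing ModularCurve
open Polynomial (aeval)

/-- The field of algebraic numbers. -/
local notation "Qb" => AlgebraicClosure ℚ
/-- The absolute Galois group. -/
local notation "GQ" => (AlgebraicClosure ℚ ≃ₐ[ℚ] AlgebraicClosure ℚ)

section Map

variable {M : ℕ} [NeZero M] {GG : Subgroup GQ} (a b : FPl M GG) {m : ℕ} [NeZero m] {g C : ℤ}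

/-- comparison of the two groups of pairs -/
def toEZ (hC : Crv Qb (F0 Qb M) g C) (hm : m ≠ 0) :
    Zg m ![a.pl, b.pl] hC hm →* (plPG a b m).EZ where
  toFun p := ⟨(⟨p.1.1, p.2.ord 0, p.2.ord 1⟩, p.1.2 0 * (p.1.2 1)⁻¹), by
    refine ⟨fun v => p.2.dvd v, ?_⟩
    change (p.1.2 0 * (p.1.2 1)⁻¹) ^ m = evL a b _ * (evR a b _)⁻¹
    rw [mul_pow, inv_pow]
    congr 1
    · apply Units.ext
      rw [Units.val_pow_eq_pow_val]
      exact (p.2.pow 0).symm
    · rw [inv_inj]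
      apply Units.ext
      rw [Units.val_pow_eq_pow_val]
      exact (p.2.pow 1).symm⟩
  map_one' := Subtype.ext (Prod.ext rfl (by
    change (1 : Qbˣ) * (1 : Qbˣ)⁻¹ = 1
    rw [inv_one, mul_one]))
  map_mul' p q := Subtype.ext (Prod.ext rfl (by
    change (p.1.2 0 * q.1.2 0) * (p.1.2 1 * q.1.2 1)⁻¹ =
      (p.1.2 0 * (p.1.2 1)⁻¹) * (q.1.2 0 * (q.1.2 1)⁻¹)
    rw [mul_inv]
    exact mul_mul_mul_comm _ _ _ _))

theorem toEZ_mem (hC : Crv Qb (F0 Qb M) g C) (hm : m ≠ 0) {p : Zg m ![a.pl, b.pl] hC hm}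
    (hp : p ∈ Bg m ![a.pl, b.pl] hC hm) : toEZ a b hC hm p ∈ (plPG a b m).EB := by
  obtain ⟨u, hu, hux, h1, h2⟩ := hp
  refine ⟨⟨Units.mk0 u hu, hux 0, hux 1⟩, Prod.ext ?_ ?_⟩
  · apply Subtype.ext
    apply Units.ext
    change (p.1.1 : F0 Qb M) = _
    rw [h1, one_mul]
    simp
  · change p.1.2 0 * (p.1.2 1)⁻¹ = evL a b _ * (evR a b _)⁻¹
    have h3 : ∀ i, (p.1.2 i : Qb) = evp ((![a.pl, b.pl] : Fin 2 → Place Qb (F0 Qb M)) i) u := by
      intro i
      have := congrFun h2 i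
      rwa [Pi.mul_apply, Pi.one_apply, one_mul] at this
    congr 1
    · apply Units.ext
      exact h3 0
    · rw [inv_inj]
      apply Units.ext
      exact h3 1

/-- comparison of the two extensions -/
def toE (hC : Crv Qb (F0 Qb M) g C) (hm : m ≠ 0) :
    Additive (Zg m ![a.pl, b.pl] hC hm ⧸ Bg m ![a.pl, b.pl] hC hm) →+ (plPG a b m).E :=
  MonoidHom.toAdditive (QuotientGroup.map _ _ (toEZ a b hC hm) fun _ hp => toEZ_mem a b hC hm hp)

theorem toE_surj (hC : Crv Qb (F0 Qb M) g C) (hm : m ≠ 0) :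
    Function.Surjective (toE a b hC hm) := by
  intro s
  obtain ⟨p, rfl⟩ := (plPG a b m).ecl_surj s
  obtain ⟨⟨f, η⟩, hf, hη⟩ := p
  have hη' : η ^ m = evL a b f * (evR a b f)⁻¹ := hη
  obtain ⟨ηb, hηb⟩ := IsAlgClosed.exists_pow_nat_eq (evR a b f : Qb) (Nat.pos_of_ne_zero hm)
  have hηb0 : ηb ≠ 0 := by
    rintro rfl
    rw [zero_pow hm] at hηb
    exact (evR a b f).ne_zero hηb.symm
  have hηb' : (Units.mk0 ηb hηb0) ^ m = evR a b f := Units.ext hηb
  have hηa : (η * Units.mk0 ηb hηb0) ^ m = evL a b f := by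
    rw [mul_pow, hη', hηb', inv_mul_cancel_right]
  have hadm : Adm m ![a.pl, b.pl] ((f : (F0 Qb M)ˣ) : F0 Qb M)
      (fun i => ((![η * Units.mk0 ηb hηb0, Units.mk0 ηb hηb0] : Fin 2 → Qbˣ) i : Qb)) := by
    refine ⟨Units.ne_zero _, fun v => hf v, fun i => ?_, fun i => ?_⟩
    · fin_cases i
      · exact f.2.1
      · exact f.2.2
    · fin_cases i
      · exact (congrArg (fun z : Qbˣ => (z : Qb)) hηa).symm
      · exact (congrArg (fun z : Qbˣ => (z : Qb)) hηb').symm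
  refine ⟨Additive.ofMul (QuotientGroup.mk ⟨(f, ![η * Units.mk0 ηb hηb0, Units.mk0 ηb hηb0]),
    hadm⟩), ?_⟩
  change (plPG a b m).ecl (toEZ a b hC hm _) = _
  congr 1
  apply Subtype.ext
  refine Prod.ext rfl ?_
  change (η * Units.mk0 ηb hηb0) * (Units.mk0 ηb hηb0)⁻¹ = η
  rw [mul_inv_cancel_right]

theorem toE_smul (hC : Crv Qb (F0 Qb M) g C) (hm : m ≠ 0)
    (hbase : ∀ (σ : GG) (a : Qb), SemilinearAut.baseAut (((galF0 M).comp GG.subtype) σ) a = σ • a)
    (hfix : ∀ (σ : GG) i, ((galF0 M).comp GG.subtype) σ •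
      (![a.pl, b.pl] : Fin 2 → Place Qb (F0 Qb M)) i = ![a.pl, b.pl] i) (σ : GG)
    (v : Additive (Zg m ![a.pl, b.pl] hC hm ⧸ Bg m ![a.pl, b.pl] hC hm)) :
    toE a b hC hm ((actV ((galF0 M).comp GG.subtype) hC hm hbase hfix).smul σ v) =
      σ • toE a b hC hm v := by
  obtain ⟨p, hp⟩ := QuotientGroup.mk_surjective v.toMul
  have : v = Additive.ofMul (QuotientGroup.mk p) := by rw [hp]; rfl
  subst this
  change (plPG a b m).ecl (toEZ a b hC hm
    (actZ ((galF0 M).comp GG.subtype) hC hm hbase hfix σ p)) =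
    (plPG a b m).ecl ((plPG a b m).actEZ σ (toEZ a b hC hm p))
  congr 1
  apply Subtype.ext
  refine Prod.ext rfl ?_
  change _ = uact (GG.subtype σ) (p.1.2 0 * (p.1.2 1)⁻¹)
  rw [map_mul, map_inv]
  rfl

end Map

section Abs

variable {Ω κ F Fb : Type*} [Field Ω] [Field κ] [Field F] [Field Fb] [Algebra Ω F] [Algebra κ Fb]
  {A : ValuationSubring Ω} {G : Type*} [Group G] [MulSemiringAction G Ω]
  [IsAlgClosed Ω] [IsAlgClosed κ] {r : A →+* κ} {γ : G →* SemilinearAut Ω F}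
  {W : ValuationSubring F} {ρ : W →+* Fb}

/-- the parameter is in the Gauss valuation ring -/
theorem inv_tW {y : F} {yb : Fb} {a : A}
    (hG : GoodCrv r γ W ρ (y - algebraMap Ω F a)⁻¹ (yb - algebraMap κ Fb (r a))⁻¹)
    (hy : y ∈ W) (hρ : ρ ⟨y, hy⟩ = yb) : ∃ h : (y - algebraMap Ω F a)⁻¹ ∈ W,
      ρ ⟨_, h⟩ = (yb - algebraMap κ Fb (r a))⁻¹ := by
  have ha := hG.alg a a.2
  have hx : y - algebraMap Ω F a ∈ W := sub_mem hy ha
  have hρx : ρ ⟨_, hx⟩ = yb - algebraMap κ Fb (r a) := by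
    have h1 : (⟨_, hx⟩ : W) = ⟨y, hy⟩ - ⟨_, ha⟩ := rfl
    rw [h1, map_sub, hρ, hG.ralg]
  have hne : yb - algebraMap κ Fb (r a) ≠ 0 := by
    intro h0
    have h1 := hG.sepb.trans
    rw [h0, inv_zero] at h1
    exact h1 isAlgebraic_zero
  have hinv : (y - algebraMap Ω F a)⁻¹ ∈ W := hG.runit ⟨_, hx⟩ (by rw [hρx]; exact hne)
  refine ⟨hinv, eq_inv_of_mul_eq_one_left ?_⟩
  have hx0 : y - algebraMap Ω F a ≠ 0 := by
    intro h0
    apply hne
    rw [← hρx]
    have : (⟨_, hx⟩ : W) = 0 := Subtype.ext h0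
    rw [this, map_zero]
  rw [← hρx, ← map_mul]
  have : (⟨_, hinv⟩ : W) * ⟨_, hx⟩ = 1 := Subtype.ext (inv_mul_cancel₀ hx0)
  rw [this, map_one]

/-- the value of `y` at `v` is congruent to `a` -/
def Bad (A : ValuationSubring Ω) (v : Place Ω F) (y : F) (a : Ω) : Prop :=
  0 ≤ v.ord y ∧ A.valuation (evp v y - a) < 1

theorem exists_val_of_not_bad {v : Place Ω F} (hr : Rational v) {y : F} {a : Ω}
    (h : ¬ Bad A v y a) : ∃ c : A, 0 < v.ord ((y - algebraMap Ω F a)⁻¹ - algebraMap Ω F c) ∨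
      (y - algebraMap Ω F a)⁻¹ = algebraMap Ω F c := by
  by_cases h0 : 0 ≤ v.ord y
  · have h1 : ¬ A.valuation (evp v y - a) < 1 := fun h2 => h ⟨h0, h2⟩
    have hym := mem_of_ord_nonneg v h0
    have hsm : y - algebraMap Ω F a ∈ v.toValuationSubring := sub_mem hym (v.algebraMap_mem' a)
    have he : evp v (y - algebraMap Ω F a) = evp v y - a := by
      rw [evp_sub hr hym (v.algebraMap_mem' a), evp_algebraMap]
    have hne : evp v y - a ≠ 0 := by
      intro h2
      rw [h2, map_zero] at h1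
      exact h1 zero_lt_one
    obtain ⟨hx0, hx1⟩ := (evp_ne_zero_iff hr hsm).mp (by rw [he]; exact hne)
    have hcA : (evp v y - a)⁻¹ ∈ A := by
      rw [← A.valuation_le_one_iff, map_inv₀]
      exact inv_le_one_of_one_le₀ (not_lt.mp h1)
    have hi : (y - algebraMap Ω F a)⁻¹ ∈ v.toValuationSubring :=
      mem_of_ord_nonneg v (by rw [v.ord_inv, hx1, neg_zero])
    have hei : evp v (y - algebraMap Ω F a)⁻¹ = (evp v y - a)⁻¹ := by
      rw [evp_inv hr hx0 hx1, he]
    refine ⟨⟨_, hcA⟩, ?_⟩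
    have h3 := evp_spec hr hi
    rw [hei, adicValuation_lt_one_iff] at h3
    rcases h3 with h3 | h3
    · exact Or.inr (sub_eq_zero.mp h3)
    · exact Or.inl h3
  · refine ⟨0, Or.inl ?_⟩
    have h1 : ¬ 0 ≤ v.ord (y - algebraMap Ω F a) := by
      intro h2
      apply h0
      have h3 : y = (y - algebraMap Ω F a) + algebraMap Ω F a := by ring
      rw [h3]
      exact ord_nonneg_of_mem v (add_mem (mem_of_ord_nonneg v h2) (v.algebraMap_mem' a))
    rw [ZeroMemClass.coe_zero, map_zero, sub_zero, v.ord_inv]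
    omega

theorem not_bad_both {v : Place Ω F} {y : F} {a a' : Ω} (h : Bad A v y a) (h' : Bad A v y a') :
    A.valuation (a - a') < 1 := by
  have h1 : a - a' = (evp v y - a') - (evp v y - a) := by ring
  rw [h1]
  exact Valuation.map_sub_lt _ h'.2 h.2

/-- One of three integers is not congruent to the values at two places. -/
theorem exists_good_int {v w : Place Ω F} {y : F}
    (h2 : ¬ A.valuation (2 : Ω) < 1) :
    ∃ n : ℤ, ¬ Bad A v y (n : Ω) ∧ ¬ Bad A w y (n : Ω) := by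
  by_contra hcon
  push Not at hcon
  have key : ∀ (v : Place Ω F) (i j : ℤ), Bad A v y (i : Ω) → Bad A v y (j : Ω) →
      A.valuation ((i : Ω) - j) < 1 := fun v i j => not_bad_both
  have k10 : ∀ v : Place Ω F, Bad A v y ((1 : ℤ) : Ω) → Bad A v y ((0 : ℤ) : Ω) → False := by
    intro v a b
    have := key v 1 0 a b
    norm_num at this
  have k20 : ∀ v : Place Ω F, Bad A v y ((2 : ℤ) : Ω) → Bad A v y ((0 : ℤ) : Ω) → False := by
    intro v a b
    have := key v 2 0 a b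
    norm_num at this
    exact h2 this
  have k21 : ∀ v : Place Ω F, Bad A v y ((2 : ℤ) : Ω) → Bad A v y ((1 : ℤ) : Ω) → False := by
    intro v a b
    have := key v 2 1 a b
    norm_num at this
  have b0 := hcon 0
  have b1 := hcon 1
  have b2 := hcon 2
  by_cases v0 : Bad A v y ((0 : ℤ) : Ω)
  · have w1 := b1 (fun h => k10 v h v0)
    have w2 := b2 (fun h => k20 v h v0)
    exact k21 w w2 w1
  · have w0 := b0 v0
    by_cases v1 : Bad A v y ((1 : ℤ) : Ω)
    · have w2 := b2 (fun h => k21 v h v1)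
      exact k20 w w2 w0
    · exact k10 w (b1 v1) w0

end Abs

section Conc

variable {A : ValuationSubring Qb} {q : ℕ} {M : ℕ} [NeZero M] {m : ℕ} [NeZero m]

/-- flatness for a given parameter -/
theorem flat_plPG (hq : q.Prime) (hA : A.LiesOverPrime q)
    {Fb : Type*} [Field Fb] [Algebra (ResidueField A) Fb] {W : ValuationSubring (F0 Qb M)}
    {ρ : W →+* Fb} {t : F0 Qb M} {tb : Fb}
    (hG : GoodCrv (residue A) ((galF0 M).comp (A.inertiaSubgroupIn ℚ).subtype) W ρ t tb)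
    (htW : t ∈ W) (htb : ρ ⟨t, htW⟩ = tb) (a b : FPl M (A.inertiaSubgroupIn ℚ))
    (ha : ∃ c : A, 0 < a.pl.ord (t - algebraMap Qb (F0 Qb M) c))
    (hb : ∃ c : A, 0 < b.pl.ord (t - algebraMap Qb (F0 Qb M) c)) :
    Finite (plPG a b m).E ∧ IsFlat (OI A) (A.inertiaSubgroupIn ℚ) (plPG a b m).E Qb := by
  have hac : IsAlgClosed (ResidueField A) := isAlgClosed_residueA hq hA
  obtain ⟨S₀, hS₀, hSel⟩ := exists_finite_sel (N := M) (NeZero.pos m)
  have hdvr : IsDiscreteValuationRing (OI A) := isDVR_OI hq hA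
  obtain ⟨ca, ha⟩ := ha
  obtain ⟨cb, hb⟩ := hb
  obtain ⟨g, C, hC, hfix, hfin, hV⟩ := flat_two hG (inert_residue hq hA) htW htb (NeZero.ne m)
    hS₀ hSel (desc_fixA (G := A.inertiaSubgroupIn ℚ) (A := A)) ha hb
    (fun σ => a.fix σ σ.2) (fun σ => b.fix σ σ.2)
  letI := actV (m := m) ((galF0 M).comp (A.inertiaSubgroupIn ℚ).subtype) hC (NeZero.ne m)
    hG.base hfix
  have hs := toE_surj a b hC (NeZero.ne m)
  exact ⟨Finite.of_surjective _ hs, hV.of_surjective
    (desc_fixA (G := A.inertiaSubgroupIn ℚ) (A := A)) (toE a b hC (NeZero.ne m)) hs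
    fun σ v => toE_smul a b hC (NeZero.ne m) hG.base hfix σ v⟩

theorem smul_E_eq_zero (a b : FPl M (A.inertiaSubgroupIn ℚ)) (e : (plPG a b m).E) :
    m • e = 0 := by
  obtain ⟨p, rfl⟩ := (plPG a b m).ecl_surj e
  have h1 : ∀ n : ℕ, n • (plPG a b m).ecl p = (plPG a b m).ecl (p ^ n) := fun n => rfl
  rw [h1, PG.ecl_eq_zero]
  refine ⟨(p : UP a b × Qbˣ).1, Prod.ext rfl ?_⟩
  exact p.2.2

/-- flat + exponent prime to the residue characteristic = unramified -/
theorem unr_plPG (hq : q.Prime) (hA : A.LiesOverPrime q) (hqm : ¬ q ∣ m)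
    (a b : FPl M (A.inertiaSubgroupIn ℚ))
    (h : IsFlat (OI A) (A.inertiaSubgroupIn ℚ) (plPG a b m).E Qb) (σ : A.inertiaSubgroupIn ℚ)
    (e : (plPG a b m).E) : σ • e = e := by
  have hm1 : A.valuation (m : Qb) = 1 := by
    by_contra hne
    have h1 : A.valuation (m : Qb) < 1 :=
      lt_of_le_of_ne (valuation_natCast_le A m) hne
    apply natCast_residue_ne hq hA hqm
    have h2 : residue A (m : A) = 0 := by
      rw [residue_eq_zero_iff, A.valuation_lt_one_iff]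
      exact_mod_cast h1
    rw [← h2, map_natCast]
  exact smul_eq_of_flat h (unr_inertia hq hA).res hm1 (smul_E_eq_zero a b) σ e

end Conc

end Fermat.Agent.GC
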