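import Mathlib
import Fermat.Agent.GC.B3Flat

/-!
# Flatness of the extension attached to a pair of rational points of `X₀(M)`: final forms
-/

set_option autoImplicit false
set_option linter.unusedSectionVars false
set_option linter.style.haveILetI false
set_option synthInstance.maxHeartbeats 400000

noncomputable section

namespace Fermat.Agent.GC

open AlgebraicCurve IsDedekindDomain IntermediateField WithZero Module Fermat.Agent.FunField
open Fermat.Agent.Flat Fermat.Agent.MZ Fermat.Agent.Lf Fermat.Agent.MP Fermat.Agent.Conn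
open Fermat.Agent.LG Fermat.Agent.ModFun Fermat.Agent.Geo Fermat.Agent.Mzr
open Fermat.Agent.ESCore (HauptFn haupt2 haupt3 ιC)
open IsLocalRing ModularCurve
open Polynomial (aeval)

/-- The field of algebraic numbers. -/
local notation "Qb" => AlgebraicClosure ℚ
/-- The absolute Galois group. -/
local notation "GQ" => (AlgebraicClosure ℚ ≃ₐ[ℚ] AlgebraicClosure ℚ)

variable {A : ValuationSubring Qb} {q : ℕ} {M : ℕ} [NeZero M] {m : ℕ} [NeZero m]

theorem jF_WV (hq : q.Prime) (hA : A.LiesOverPrime q) :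
    ∃ h : jF Qb M ∈ WV hq hA M, ρV hq hA M ⟨_, h⟩ = jFb A M := by
  obtain ⟨h, hr⟩ := jq_gA (A := A)
  exact ⟨h, Subtype.ext hr⟩

theorem tF_WV {p : ℕ} [Fact p.Prime] {κ : ℤ} (H : HauptFn p κ) (hp : p ∣ M) (hq : q.Prime)
    (hA : A.LiesOverPrime q) :
    ∃ h : tF H hp ∈ WV hq hA M, ρV hq hA M ⟨_, h⟩ = tFb H hp A := by
  obtain ⟨h, hr⟩ := tS_mem_gA (A := A) (p := p) (κ := κ)
  exact ⟨h, Subtype.ext hr⟩

theorem inv_tW_int {Fb : Type*} [Field Fb] [Algebra (ResidueField A) Fb]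
    {G : Type*} [Group G] [MulSemiringAction G Qb] [IsAlgClosed (ResidueField A)]
    {γ : G →* SemilinearAut Qb (F0 Qb M)}
    {W : ValuationSubring (F0 Qb M)} {ρ : W →+* Fb} {y : F0 Qb M} {yb : Fb} {n : ℤ}
    (hG : GoodCrv (residue A) γ W ρ (y - algebraMap Qb (F0 Qb M) (n : Qb))⁻¹
      (yb - algebraMap (ResidueField A) Fb (n : ResidueField A))⁻¹)
    (hy : y ∈ W) (hρ : ρ ⟨y, hy⟩ = yb) :
    ∃ h : (y - algebraMap Qb (F0 Qb M) (n : Qb))⁻¹ ∈ W,
      ρ ⟨_, h⟩ = (yb - algebraMap (ResidueField A) Fb (n : ResidueField A))⁻¹ := by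
  have e2 : residue A ((n : ℤ) : A) = ((n : ℤ) : ResidueField A) := map_intCast _ n
  rw [← e2] at hG ⊢
  exact inv_tW (a := ((n : ℤ) : A)) hG hy hρ

theorem two_not_lt (hq : q.Prime) (hq5 : 5 ≤ q) (hA : A.LiesOverPrime q) :
    ¬ A.valuation (2 : Qb) < 1 := by
  intro h1
  apply natCast_residue_ne hq hA (r := 2) (fun h => by
    have := Nat.le_of_dvd (by norm_num) h
    omega)
  have h2 : residue A ((2 : ℕ) : A) = 0 := by
    rw [residue_eq_zero_iff, A.valuation_lt_one_iff]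
    exact_mod_cast h1
  rw [← h2, map_natCast]

theorem good_val {y : F0 Qb M} {t : F0 Qb M} {a : Place Qb (F0 Qb M)} {n : ℤ}
    (h : ¬ Bad A a y (n : Qb)) (ht : t = (y - algebraMap Qb (F0 Qb M) (n : Qb))⁻¹)
    (htr : Transcendental Qb t) : ∃ c : A, 0 < a.ord (t - algebraMap Qb (F0 Qb M) c) := by
  obtain ⟨c, hc⟩ := exists_val_of_not_bad (rat_F0 a) h
  refine ⟨c, ?_⟩
  rcases hc with hc | hc
  · rw [ht]; exact hc
  · exfalso
    rw [ht, hc] at htr
    exact htr (isAlgebraic_algebraMap _)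

/-- **(B3-flat)** residue characteristic `q ≥ 5`: any level prime to `q`, any two places fixed by
the inertia group. -/
theorem flat_J (hq : q.Prime) (hq5 : 5 ≤ q) (hA : A.LiesOverPrime q) (hqM : ¬ q ∣ M)
    (a b : FPl M (A.inertiaSubgroupIn ℚ)) :
    Finite (plPG a b m).E ∧ IsFlat (OI A) (A.inertiaSubgroupIn ℚ) (plPG a b m).E Qb := by
  have hac : IsAlgClosed (ResidueField A) := isAlgClosed_residueA hq hA
  obtain ⟨n, hna, hnb⟩ := exists_good_int (v := a.pl) (w := b.pl) (y := jF Qb M)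
    (two_not_lt hq hq5 hA)
  have hG := goodCrv_J hq hq5 hA hqM n (A.inertiaSubgroupIn ℚ) le_rfl
  obtain ⟨hj, hjr⟩ := jF_WV (M := M) hq hA
  obtain ⟨htW, htb⟩ := inv_tW_int hG hj hjr
  exact flat_plPG hq hA hG htW htb a b (good_val hna rfl hG.sep.trans)
    (good_val hnb rfl hG.sep.trans)

/-- **(B3-unr)** residue characteristic `q ≥ 5`. -/
theorem unr_J (hq : q.Prime) (hq5 : 5 ≤ q) (hA : A.LiesOverPrime q) (hqM : ¬ q ∣ M)
    (hqm : ¬ q ∣ m) (a b : FPl M (A.inertiaSubgroupIn ℚ)) (σ : A.inertiaSubgroupIn ℚ)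
    (e : (plPG a b m).E) : σ • e = e :=
  unr_plPG hq hA hqm a b (flat_J hq hq5 hA hqM a b).2 σ e

/-- **(B3-flat)**, any residue characteristic, level divisible by `p`, values of `(t - n)⁻¹` in
`A`. -/
theorem flat_T_of {p : ℕ} [Fact p.Prime] {κ : ℤ} {H : HauptFn p κ} {S : Set ℤ} {k : ℕ}
    {P : Polynomial ℤ} (hH : HautData H S k P) (hp : p ∣ M)
    (hS : ∀ c ∈ S, ∀ c' ∈ S, c ≠ c' → IsUnit ((c - c' : ℤ) : A.comap (algebraMap (KI A) Qb)))
    (hq : q.Prime) (hA : A.LiesOverPrime q) (hqM : ¬ q ∣ M) (n : ℤ)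
    (a b : FPl M (A.inertiaSubgroupIn ℚ))
    (ha : ∃ c : A, 0 < a.pl.ord ((tF H hp - algebraMap Qb (F0 Qb M) (n : Qb))⁻¹ -
      algebraMap Qb (F0 Qb M) c))
    (hb : ∃ c : A, 0 < b.pl.ord ((tF H hp - algebraMap Qb (F0 Qb M) (n : Qb))⁻¹ -
      algebraMap Qb (F0 Qb M) c)) :
    Finite (plPG a b m).E ∧ IsFlat (OI A) (A.inertiaSubgroupIn ℚ) (plPG a b m).E Qb := by
  have hac : IsAlgClosed (ResidueField A) := isAlgClosed_residueA hq hA
  have hG := goodCrv_T_of hH hp hS hq hA hqM n (A.inertiaSubgroupIn ℚ) le_rfl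
  obtain ⟨hj, hjr⟩ := tF_WV (M := M) H hp hq hA
  obtain ⟨htW, htb⟩ := inv_tW_int hG hj hjr
  exact flat_plPG hq hA hG htW htb a b ha hb

/-- **(B3-flat)**, even level, values of `t⁻¹` in `A`. -/
theorem flat_T2 (hM : 2 ∣ M) (hq : q.Prime) (hA : A.LiesOverPrime q) (hqM : ¬ q ∣ M)
    (a b : FPl M (A.inertiaSubgroupIn ℚ))
    (ha : haveI : Fact (Nat.Prime 2) := ⟨Nat.prime_two⟩
      ∃ c : A, 0 < a.pl.ord ((tF haupt2 hM)⁻¹ - algebraMap Qb (F0 Qb M) c))
    (hb : haveI : Fact (Nat.Prime 2) := ⟨Nat.prime_two⟩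
      ∃ c : A, 0 < b.pl.ord ((tF haupt2 hM)⁻¹ - algebraMap Qb (F0 Qb M) c)) :
    Finite (plPG a b m).E ∧ IsFlat (OI A) (A.inertiaSubgroupIn ℚ) (plPG a b m).E Qb := by
  haveI : Fact (Nat.Prime 2) := ⟨Nat.prime_two⟩
  refine flat_T_of haut2 hM (haut2_isUnit hq hA fun h => hqM (h ▸ hM)) hq hA hqM 0 a b ?_ ?_
  · rw [Int.cast_zero, map_zero, sub_zero]; exact ha
  · rw [Int.cast_zero, map_zero, sub_zero]; exact hb

/-- **(B3-flat)**, level divisible by three, values of `t⁻¹` in `A`. -/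
theorem flat_T3 (hM : 3 ∣ M) (hq : q.Prime) (hA : A.LiesOverPrime q) (hqM : ¬ q ∣ M)
    (a b : FPl M (A.inertiaSubgroupIn ℚ))
    (ha : haveI : Fact (Nat.Prime 3) := ⟨Nat.prime_three⟩
      ∃ c : A, 0 < a.pl.ord ((tF haupt3 hM)⁻¹ - algebraMap Qb (F0 Qb M) c))
    (hb : haveI : Fact (Nat.Prime 3) := ⟨Nat.prime_three⟩
      ∃ c : A, 0 < b.pl.ord ((tF haupt3 hM)⁻¹ - algebraMap Qb (F0 Qb M) c)) :
    Finite (plPG a b m).E ∧ IsFlat (OI A) (A.inertiaSubgroupIn ℚ) (plPG a b m).E Qb := by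
  haveI : Fact (Nat.Prime 3) := ⟨Nat.prime_three⟩
  refine flat_T_of haut3 hM (haut3_isUnit hq hA fun h => hqM (h ▸ hM)) hq hA hqM 0 a b ?_ ?_
  · rw [Int.cast_zero, map_zero, sub_zero]; exact ha
  · rw [Int.cast_zero, map_zero, sub_zero]; exact hb

end Fermat.Agent.GC
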