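import Mathlib
import Fermat.Agent.MZ.Inj
import Fermat.Agent.MZ.Ver
import Fermat.Agent.MZ.LiftM0

/-!
# Parabolic characters and change of level
-/

set_option autoImplicit false
set_option linter.unusedSectionVars false

noncomputable section

namespace Fermat.Agent.GC

open Fermat.Agent.Geo Fermat.Agent.LG Fermat.Agent.ModFun Fermat.Agent.MZ
open Fermat.Agent.ESCore (resChar Gamma0_le_of_dvd ιC)
open CongruenceSubgroup (Gamma0)
open Matrix.SpecialLinearGroup MatrixGroups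

/-- The field of algebraic numbers. -/
local notation "Qb" => AlgebraicClosure ℚ

/-- lower unipotent matrices -/
def lowU (n : ℤ) : SL(2, ℤ) := ⟨!![1, 0; n, 1], by rw [Matrix.det_fin_two_of]; ring⟩

/-- upper unipotent matrices -/
def upU (n : ℤ) : SL(2, ℤ) := ⟨!![1, n; 0, 1], by rw [Matrix.det_fin_two_of]; ring⟩

theorem char_aux {N r : ℕ} (hrp : Prime (r : ℤ)) (h : N ∣ r * N)
    {χ : Gamma0 N →* ℂˣ} (hpar : IsPar χ) (hres : resChar h χ = 1) (γ : Gamma0 N)
    (hd : ¬ (r : ℤ) ∣ (γ : SL(2, ℤ)) 1 1) : χ γ = 1 := by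
  obtain ⟨γ, hγ⟩ := γ
  have hc : (N : ℤ) ∣ γ 1 0 := by
    have := CongruenceSubgroup.Gamma0_mem.mp hγ
    exact (ZMod.intCast_zmod_eq_zero_iff_dvd _ _).mp this
  obtain ⟨c', hc'⟩ := hc
  -- choose `j` with `c' + j d ≡ 0`
  have hco : IsCoprime (r : ℤ) (γ 1 1) := (hrp.coprime_iff_not_dvd).mpr hd
  obtain ⟨x, y, hxy⟩ := hco
  let j : ℤ := -(c' * y)
  have hj : (r : ℤ) ∣ c' + j * γ 1 1 := ⟨c' * x, by
    simp only [j]
    linear_combination -c' * hxy⟩
  have hU : lowU (j * N) ∈ Gamma0 N := by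
    rw [CongruenceSubgroup.Gamma0_mem]
    change ((j * N : ℤ) : ZMod N) = 0
    rw [ZMod.intCast_zmod_eq_zero_iff_dvd]
    exact dvd_mul_left _ _
  have h1 : χ ⟨lowU (j * N), hU⟩ = 1 := by
    apply hpar
    change (1 + 1 : ℤ) ^ 2 = 4
    norm_num
  have h2 : γ * lowU (j * N) ∈ Gamma0 (r * N) := by
    rw [CongruenceSubgroup.Gamma0_mem]
    have e : (γ * lowU (j * N)) 1 0 = γ 1 0 + γ 1 1 * (j * N) := by
      rw [Matrix.SpecialLinearGroup.coe_mul, Matrix.mul_apply, Fin.sum_univ_two]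
      change γ 1 0 * 1 + γ 1 1 * (j * N) = _
      ring
    rw [e, hc', ZMod.intCast_zmod_eq_zero_iff_dvd]
    obtain ⟨k, hk⟩ := hj
    refine ⟨k, ?_⟩
    push_cast
    linear_combination (N : ℤ) * hk
  have h3 : χ (⟨γ, hγ⟩ * ⟨lowU (j * N), hU⟩) = 1 := by
    have h4 : resChar h χ ⟨_, h2⟩ = 1 := by rw [hres]; rfl
    exact h4
  rwa [map_mul, h1, mul_one] at h3

/-- A parabolic character of `Γ₀(N)` which is trivial on `Γ₀(rN)` is trivial. -/
theorem eq_one_of_resChar_par {N r : ℕ} (hr : r.Prime) (h : N ∣ r * N)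
    {χ : Gamma0 N →* ℂˣ} (hpar : IsPar χ) (hres : resChar h χ = 1) : χ = 1 := by
  have hrp : Prime (r : ℤ) := Nat.prime_iff_prime_int.mp hr
  ext γ
  congr 1
  rw [MonoidHom.one_apply]
  by_cases hd : (r : ℤ) ∣ (γ : SL(2, ℤ)) 1 1
  · obtain ⟨γ, hγ⟩ := γ
    have hT : upU 1 ∈ Gamma0 N := by
      rw [CongruenceSubgroup.Gamma0_mem]
      change ((0 : ℤ) : ZMod N) = 0
      exact Int.cast_zero
    have h1 : χ ⟨upU 1, hT⟩ = 1 := by
      apply hpar
      change (1 + 1 : ℤ) ^ 2 = 4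
      norm_num
    have h2 : χ (⟨γ, hγ⟩ * ⟨upU 1, hT⟩) = 1 := by
      apply char_aux hrp h hpar hres
      change ¬ (r : ℤ) ∣ (γ * upU 1) 1 1
      have e : (γ * upU 1) 1 1 = γ 1 0 + γ 1 1 := by
        rw [Matrix.SpecialLinearGroup.coe_mul, Matrix.mul_apply, Fin.sum_univ_two]
        change γ 1 0 * 1 + γ 1 1 * 1 = _
        ring
      rw [e]
      intro h3
      have h4 : (r : ℤ) ∣ γ 1 0 := (dvd_add_left hd).mp h3
      have h5 := γ.det_coe
      rw [Matrix.det_fin_two] at h5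
      have h6 : (r : ℤ) ∣ 1 := by
        rw [← h5]
        exact dvd_sub (dvd_mul_of_dvd_right hd _) (dvd_mul_of_dvd_right h4 _)
      exact hrp.not_isUnit (isUnit_of_dvd_one h6)
    rwa [map_mul, h1, mul_one] at h2
  · exact char_aux hrp h hpar hres γ hd

/-- a function of level `rN` with a parabolic character of level `N` is of level `N` -/
theorem mem_F0_of_par {N r : ℕ} [NeZero N] [NeZero (r * N)] (hr : r.Prime)
    {χ : Gamma0 N →* ℂˣ} (hpar : IsPar χ) {y : LaurentSeries Qb} (hy : XSer ιC N χ y)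
    (hyF : y ∈ F0 Qb (r * N)) : y ∈ F0 Qb N := by
  by_cases hy0 : y = 0
  · rw [hy0]; exact zero_mem _
  have h1 := xSer_resChar (dvd_mul_left N r) hy
  have h2 := h1.eq_one_of_mem hy0 hyF
  have h3 := eq_one_of_resChar_par hr _ hpar h2
  rw [h3] at hy
  exact hy.mem_F0

/-- **injectivity of the change of level**: an `m`-th power at level `rN` is an `m`-th power at
level `N`. -/
theorem exists_root_low {N r : ℕ} [NeZero N] [NeZero (r * N)] (hr : r.Prime)
    {m : ℕ} (hm : 0 < m) {f : F0 Qb N} (hf : f ≠ 0)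
    (hdvd : ∀ v : AlgebraicCurve.Place Qb (F0 Qb N), (m : ℤ) ∣ v.ord f)
    {w : F0 Qb (r * N)} (hw : (f : LaurentSeries Qb) = (w : LaurentSeries Qb) ^ m) :
    ∃ u : F0 Qb N, (u : LaurentSeries Qb) = w := by
  obtain ⟨χ, hχ, hpar, y, hy0, hy, u, hu0, hyu⟩ := exists_xSer_par (ι := ιC) hm hf hdvd
  have hu0' : (u : LaurentSeries Qb) ≠ 0 := fun h => hu0 (Subtype.ext h)
  have hw0 : (w : LaurentSeries Qb) ≠ 0 := by
    intro h
    rw [h, zero_pow hm.ne'] at hw
    exact hf (Subtype.ext hw)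
  -- `y = ζ w u`
  have h1 : (y / ((w : LaurentSeries Qb) * u)) ^ m = 1 := by
    rw [div_pow, hyu, hw, mul_pow, div_self (mul_ne_zero (pow_ne_zero _ hw0) (pow_ne_zero _ hu0'))]
  have h3 : IsIntegral Qb (y / ((w : LaurentSeries Qb) * u)) := by
    refine IsIntegral.of_pow hm ?_
    rw [h1]
    exact isIntegral_one
  obtain ⟨a, ha⟩ := minpoly.mem_range_of_degree_eq_one Qb _
    (IsAlgClosed.degree_eq_one_of_irreducible Qb (minpoly.irreducible h3))
  have ha0 : a ≠ 0 := by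
    rintro rfl
    rw [map_zero] at ha
    rw [← ha, zero_pow hm.ne'] at h1
    exact zero_ne_one h1
  have h4 : y = algebraMap Qb (LaurentSeries Qb) a * ((w : LaurentSeries Qb) * u) := by
    rw [ha, div_mul_cancel₀ _ (mul_ne_zero hw0 hu0')]
  have huN : (u : LaurentSeries Qb) ∈ F0 Qb (r * N) := F0_mono (dvd_mul_left N r) u.2
  have h5 : y ∈ F0 Qb (r * N) := by
    rw [h4]
    exact mul_mem ((F0 Qb (r * N)).algebraMap_mem a) (mul_mem w.2 huN)
  have h6 := mem_F0_of_par hr hpar hy h5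
  have ha' : algebraMap Qb (LaurentSeries Qb) a ≠ 0 := by rwa [Ne, map_eq_zero]
  have h7 : (w : LaurentSeries Qb) = y / (algebraMap Qb (LaurentSeries Qb) a * u) := by
    rw [h4]
    field_simp
  refine ⟨⟨w, ?_⟩, rfl⟩
  rw [h7]
  exact div_mem h6 (mul_mem ((F0 Qb N).algebraMap_mem a) u.2)

end Fermat.Agent.GC
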