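import Mathlib
import Fermat.Agent.GC.ParRes
import Fermat.Agent.GC.B3Flat2
import Fermat.Agent.MX.Rst

/-!
# Change of level for the extension attached to a pair of rational points
-/

set_option autoImplicit false
set_option linter.unusedSectionVars false
set_option linter.style.haveILetI false
set_option synthInstance.maxHeartbeats 400000

noncomputable section

namespace Fermat.Agent.GC

open AlgebraicCurve IsDedekindDomain IntermediateField WithZero Module Fermat.Agent.FunField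
open Fermat.Agent.Flat Fermat.Agent.MZ Fermat.Agent.Lf Fermat.Agent.MP Fermat.Agent.Conn
open Fermat.Agent.LG Fermat.Agent.ModFun Fermat.Agent.Geo Fermat.Agent.Mzr Fermat.Agent.MX
open Fermat.Agent.ESCore (HauptFn haupt2 haupt3 ιC)
open IsLocalRing ModularCurve
open Polynomial (aeval)

/-- The field of algebraic numbers. -/
local notation "Qb" => AlgebraicClosure ℚ
/-- The absolute Galois group. -/
local notation "GQ" => (AlgebraicClosure ℚ ≃ₐ[ℚ] AlgebraicClosure ℚ)

variable {N M : ℕ} [NeZero N] [NeZero M] (hle : F0 Qb N ≤ F0 Qb M)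

/-- the inclusion -/
def incF : F0 Qb N →+* F0 Qb M :=
  ((IntermediateField.inclusion hle : F0 Qb N →ₐ[Qb] F0 Qb M) : F0 Qb N →+* F0 Qb M)

theorem coe_incF (f : F0 Qb N) : ((incF hle f : F0 Qb M) : LaurentSeries Qb) = f :=
  IntermediateField.coe_inclusion hle f

theorem incF_algebraMap (a : Qb) :
    incF hle (algebraMap Qb (F0 Qb N) a) = algebraMap Qb (F0 Qb M) a := rfl

theorem incF_gal (σ : GQ) (f : F0 Qb N) :
    incF hle (galF0 N σ • f) = galF0 M σ • incF hle f := Subtype.ext rfl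

theorem exists_abv_incF (v' : Place Qb (F0 Qb M)) : ∃ v : Place Qb (F0 Qb N),
    Abv (incF hle) v' v := by
  refine exists_abv (incF_algebraMap hle) v' ?_
  have hj : incF hle (jF Qb N) = jF Qb M := Subtype.ext rfl
  by_contra hcon
  push Not at hcon
  have h1 := hcon (jF Qb N)
  rw [hj] at h1
  have h2 := evp_spec (rat_F0 v') (mem_of_ord_nonneg v' h1.ge)
  have h3 := hcon (jF Qb N - algebraMap Qb (F0 Qb N) (evp v' (jF Qb M)))
  rw [map_sub, hj, incF_algebraMap] at h3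
  rw [adicValuation_lt_one_iff, h3] at h2
  rcases h2 with h2 | h2
  · have h4 := (sep_jF (N := M) ιC).trans
    rw [sub_eq_zero.mp h2] at h4
    exact h4 (isAlgebraic_algebraMap _)
  · exact lt_irrefl _ h2

theorem incF_dvd {m : ℕ} {f : F0 Qb N} (h : ∀ v : Place Qb (F0 Qb N), (m : ℤ) ∣ v.ord f)
    (v' : Place Qb (F0 Qb M)) : (m : ℤ) ∣ v'.ord (incF hle f) := by
  obtain ⟨v, e, -, hv⟩ := exists_abv_incF hle v'
  rw [hv]
  exact dvd_mul_of_dvd_right (h v) _

variable {GG : Subgroup GQ} {a b : FixPl N} {a' b' : FPl M GG}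

section

variable (ha : Abv (incF hle) a'.pl a.pl) (hb : Abv (incF hle) b'.pl b.pl)

/-- the map on functions -/
def incU : UG ({a, b} : Set (FixPl N)) →* UP a' b' where
  toFun f := ⟨Units.map (incF hle : F0 Qb N →* F0 Qb M) f, by
    refine ⟨?_, ?_⟩
    · obtain ⟨e, -, he⟩ := ha
      change a'.pl.ord (incF hle ((f : (F0 Qb N)ˣ) : F0 Qb N)) = 0
      rw [he, f.2 a (Set.mem_insert _ _), mul_zero]
    · obtain ⟨e, -, he⟩ := hb
      change b'.pl.ord (incF hle ((f : (F0 Qb N)ˣ) : F0 Qb N)) = 0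
      rw [he, f.2 b (Set.mem_insert_of_mem _ rfl), mul_zero]⟩
  map_one' := Subtype.ext (map_one _)
  map_mul' f g := Subtype.ext (map_mul _ _ _)

theorem coe_incU (f : UG ({a, b} : Set (FixPl N))) :
    (((incU hle ha hb f : UP a' b') : (F0 Qb M)ˣ) : F0 Qb M) =
      incF hle ((f : (F0 Qb N)ˣ) : F0 Qb N) := rfl

variable {m : ℕ} [NeZero m]

theorem incU_y (f : UG ({a, b} : Set (FixPl N))) :
    (plPG a' b' m).y (incU hle ha hb f) = (pairPD m a b).y f := by
  change evL a' b' (incU hle ha hb f) * (evR a' b' (incU hle ha hb f))⁻¹ =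
    evU a _ f * (evU b _ f)⁻¹
  congr 1
  · apply Units.ext
    rw [coe_evL, coe_evU, coe_incU]
    exact ha.evp_eq (incF_algebraMap hle) (rat_F0 _) (f.2 a (Set.mem_insert _ _)).ge
  · rw [inv_inj]
    apply Units.ext
    rw [coe_evR, coe_evU, coe_incU]
    exact hb.evp_eq (incF_algebraMap hle) (rat_F0 _) (f.2 b (Set.mem_insert_of_mem _ rfl)).ge

/-- the map on pairs -/
def incEZ : (pairPD m a b).EZ →* (plPG a' b' m).EZ where
  toFun p := ⟨(incU hle ha hb p.1.1, p.1.2), by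
    refine ⟨fun v' => incF_dvd hle (fun v => p.2.1 v) v', ?_⟩
    change p.1.2 ^ m = (plPG a' b' m).y (incU hle ha hb p.1.1)
    rw [incU_y]
    exact p.2.2⟩
  map_one' := Subtype.ext (Prod.ext (map_one _) rfl)
  map_mul' p q := Subtype.ext (Prod.ext (map_mul _ _ _) rfl)

/-- the map on extensions -/
def incE : (pairPD m a b).E →+ (plPG a' b' m).E :=
  MonoidHom.toAdditive (QuotientGroup.map _ _ (incEZ hle ha hb) (by
    rintro p ⟨u, hu⟩
    refine ⟨incU hle ha hb u, ?_⟩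
    change (incU hle ha hb p.1.1, p.1.2) = _
    rw [hu, map_pow, incU_y]))

theorem incE_ecl (p : (pairPD m a b).EZ) :
    incE hle ha hb ((pairPD m a b).ecl p) = (plPG a' b' m).ecl (incEZ hle ha hb p) := rfl

theorem incE_smul (σ : GG) (e : (pairPD m a b).E) :
    incE hle ha hb ((σ : GQ) • e) = σ • incE hle ha hb e := by
  obtain ⟨p, rfl⟩ := (pairPD m a b).ecl_surj e
  rfl

theorem incE_inj (hroot : ∀ f : F0 Qb N, f ≠ 0 → (∀ v : Place Qb (F0 Qb N), (m : ℤ) ∣ v.ord f) →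
      ∀ w : F0 Qb M, incF hle f = w ^ m → ∃ u : F0 Qb N, incF hle u = w) :
    Function.Injective (incE (m := m) hle ha hb) := by
  rw [injective_iff_map_eq_zero]
  intro e he
  obtain ⟨p, rfl⟩ := (pairPD m a b).ecl_surj e
  rw [incE_ecl, PG.ecl_eq_zero] at he
  obtain ⟨w, hw⟩ := he
  have h1 : incU hle ha hb p.1.1 = w ^ m := congrArg Prod.fst hw
  have h2 : p.1.2 = (plPG a' b' m).y w := congrArg Prod.snd hw
  have h1' : incF hle (((p.1.1 : UG ({a, b} : Set (FixPl N))) : (F0 Qb N)ˣ) : F0 Qb N) =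
      (((w : UP a' b') : (F0 Qb M)ˣ) : F0 Qb M) ^ m := by
    rw [← coe_incU hle ha hb, h1]
    simp
  obtain ⟨u, hu⟩ := hroot _ (Units.ne_zero _) (fun v => p.2.1 v) _ h1'
  have hu0 : u ≠ 0 := by
    rintro rfl
    rw [map_zero] at hu
    exact Units.ne_zero _ hu.symm
  have hpu : (((p.1.1 : UG ({a, b} : Set (FixPl N))) : (F0 Qb N)ˣ) : F0 Qb N) = u ^ m := by
    apply (incF hle).injective
    rw [h1', map_pow, hu]
  have hord : ∀ c ∈ ({a, b} : Set (FixPl N)), c.pl.ord u = 0 := by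
    intro c hc
    have h3 := p.1.1.2 c hc
    rw [hpu, Flat.ord_pow] at h3
    rcases mul_eq_zero.mp h3 with h4 | h4
    · exact absurd (by exact_mod_cast h4) (NeZero.ne m)
    · exact h4
  let u' : UG ({a, b} : Set (FixPl N)) := ⟨Units.mk0 u hu0, hord⟩
  have hwu : incU hle ha hb u' = w := Subtype.ext (Units.ext hu)
  rw [PD.ecl_eq_zero]
  refine ⟨u', Prod.ext ?_ ?_⟩
  · apply Subtype.ext
    apply Units.ext
    rw [hpu]
    simp [u']
  · rw [← incU_y hle ha hb, hwu]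
    exact h2

end

section Flat

variable {A : ValuationSubring Qb} {q : ℕ} {m : ℕ} [NeZero m]

/-- flatness at a lower level -/
theorem flat_pair_of {a b : FixPl N} {a' b' : FPl M (A.inertiaSubgroupIn ℚ)}
    (ha : Abv (incF hle) a'.pl a.pl) (hb : Abv (incF hle) b'.pl b.pl)
    (hroot : ∀ f : F0 Qb N, f ≠ 0 → (∀ v : Place Qb (F0 Qb N), (m : ℤ) ∣ v.ord f) →
      ∀ w : F0 Qb M, incF hle f = w ^ m → ∃ u : F0 Qb N, incF hle u = w)
    (h : Finite (plPG a' b' m).E ∧
      IsFlat (OI A) (A.inertiaSubgroupIn ℚ) (plPG a' b' m).E Qb) :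
    Finite (pairPD m a b).E ∧ IsFlat (OI A) (A.inertiaSubgroupIn ℚ) (pairPD m a b).E Qb := by
  have hinj := incE_inj (m := m) hle ha hb hroot
  have := h.1
  exact ⟨Finite.of_injective _ hinj, h.2.of_injective (incE hle ha hb) hinj
    fun σ e => incE_smul hle ha hb σ e⟩

end Flat

section Final

variable {A : ValuationSubring Qb} {q : ℕ} {m : ℕ} [NeZero m]

/-- a rational point as a point fixed by a subgroup -/
def FixPl.toF (a : FixPl N) (GG : Subgroup GQ) : FPl N GG := ⟨a.pl, fun σ _ => a.fix σ⟩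

theorem incF_refl (f : F0 Qb N) : incF (le_refl (F0 Qb N)) f = f :=
  Subtype.ext (coe_incF _ f)

theorem abv_refl (v : Place Qb (F0 Qb N)) : Abv (incF (le_refl (F0 Qb N))) v v :=
  ⟨1, le_rfl, fun f => by rw [incF_refl, Nat.cast_one, one_mul]⟩

/-- **(B3-flat)** for `X₀(N)`, residue characteristic `q ≥ 5`, `q ∤ N`. -/
theorem flat_pair_J (hq : q.Prime) (hq5 : 5 ≤ q) (hA : A.LiesOverPrime q) (hqN : ¬ q ∣ N)
    (a b : FixPl N) :
    Finite (pairPD m a b).E ∧ IsFlat (OI A) (A.inertiaSubgroupIn ℚ) (pairPD m a b).E Qb :=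
  flat_pair_of (a' := FixPl.toF a _) (b' := FixPl.toF b _) (le_refl _) (abv_refl a.pl)
    (abv_refl b.pl) (fun _ _ _ w _ => ⟨w, incF_refl w⟩) (flat_J hq hq5 hA hqN _ _)

/-- **(B3-flat)** for `X₀(N)`, from the level `rN`. -/
theorem flat_pair_low {r : ℕ} [NeZero (r * N)] (hr : r.Prime) (hle : F0 Qb N ≤ F0 Qb (r * N))
    {a b : FixPl N} {a' b' : FPl (r * N) (A.inertiaSubgroupIn ℚ)}
    (ha : Abv (incF hle) a'.pl a.pl) (hb : Abv (incF hle) b'.pl b.pl)
    (h : Finite (plPG a' b' m).E ∧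
      IsFlat (OI A) (A.inertiaSubgroupIn ℚ) (plPG a' b' m).E Qb) :
    Finite (pairPD m a b).E ∧ IsFlat (OI A) (A.inertiaSubgroupIn ℚ) (pairPD m a b).E Qb := by
  refine flat_pair_of hle ha hb (fun f hf hdvd w hw => ?_) h
  obtain ⟨u, hu⟩ := exists_root_low hr (NeZero.pos m) hf hdvd (w := w) (by
    rw [← coe_incF hle f, hw]
    rfl)
  exact ⟨u, Subtype.ext ((coe_incF hle u).trans hu)⟩

/-- **(B3-unr)** -/
theorem unr_pair (hq : q.Prime) (hA : A.LiesOverPrime q) (hqm : ¬ q ∣ m) {a b : FixPl N}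
    (h : IsFlat (OI A) (A.inertiaSubgroupIn ℚ) (pairPD m a b).E Qb) (σ : GQ)
    (hσ : σ ∈ A.inertiaSubgroupIn ℚ) (e : (pairPD m a b).E) : σ • e = e := by
  have hm1 : A.valuation (m : Qb) = 1 := by
    by_contra hne
    have h1 : A.valuation (m : Qb) < 1 :=
      lt_of_le_of_ne (valuation_natCast_le A m) hne
    apply natCast_residue_ne hq hA hqm
    have h2 : residue A (m : A) = 0 := by
      rw [residue_eq_zero_iff, A.valuation_lt_one_iff]
      exact_mod_cast h1
    rw [← h2, map_natCast]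
  exact smul_eq_of_flat h (unr_inertia hq hA).res hm1 (pairPD m a b).smul_E ⟨σ, hσ⟩ e

/-- **(B3-unr)** for `X₀(N)`, residue characteristic `q ≥ 5`, `q ∤ N m`. -/
theorem unr_pair_J (hq : q.Prime) (hq5 : 5 ≤ q) (hA : A.LiesOverPrime q) (hqN : ¬ q ∣ N)
    (hqm : ¬ q ∣ m) (a b : FixPl N) (σ : GQ) (hσ : σ ∈ A.inertiaSubgroupIn ℚ)
    (e : (pairPD m a b).E) : σ • e = e :=
  unr_pair hq hA hqm (flat_pair_J hq hq5 hA hqN a b).2 σ hσ e

end Final

end Fermat.Agent.GC
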